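import Fermat.Agent.S55.D.ULevel
import Fermat.Agent.S55.D.ProCycInst
import Fermat.Agent.S55.Coh.Arith
import Fermat.Agent.Cheb.Interface

/-!
# S56 / KS / Cheb  [S56/KS-CHEB]   Chebotarev at a level, restriction to decomposition groups, conjugacy of Frobenius elements (helper9)
-/

set_option autoImplicit false

open Fermat.Agent.S55 ExtCitation
open scoped Pointwise

namespace Fermat.Agent.S56.KS

theorem cheb_level (U : Subgroup GQ) (hU : U ∈ lvlQ.sets) (S : Finset ℕ) (σ : GQ) :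
    ∃ (q : Nat.Primes) (A : ValuationSubring Qb) (σ' : GQ), (q : ℕ) ∉ S ∧ A.LiesOverPrime q ∧
      A.IsFrobeniusAt σ' q ∧ σ⁻¹ * σ' ∈ U := by
  obtain ⟨W, hW, hWU, hWn⟩ := lvlQ.normal U hU
  obtain ⟨F, hF, rfl⟩ := hW
  haveI := hWn
  let r : GQ →* GQ ⧸ F.fixingSubgroup := QuotientGroup.mk' _
  have hfin : GaloisFactorsThroughFiniteLevel r := ⟨F, hF, fun τ hτ => by
    show (QuotientGroup.mk' _) τ = 1
    rw [QuotientGroup.mk'_apply, QuotientGroup.eq_one_iff]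
    exact (IntermediateField.mem_fixingSubgroup_iff F τ).2 hτ⟩
  obtain ⟨q, A, σ', hq, hqS, hA, hFr, hr⟩ := Cheb.exists_frobenius_eq r hfin S σ
  refine ⟨⟨q, hq⟩, A, σ', hqS, hA, hFr, hWU ?_⟩
  exact QuotientGroup.eq.1 hr.symm

theorem loc_cob {A : Type*} [AddCommGroup A] (ρ : GQ →* AddMonoid.End A) (f : ↥(Z1 lvlQ ρ))
    (q : Nat.Primes) (h : loc1 ρ q (H1.mk lvlQ ρ f) = 0) (P : ValuationSubring Qb)
    (hP : P.LiesOverPrime q) (σ : GQ) (hσ : σ ∈ P.decompositionSubgroup ℚ) :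
    ∃ a : A, (f : GQ → A) σ = ρ σ a - a := by
  obtain ⟨g, -, hg⟩ := D.exists_conj_Iq hP
  have hd : g⁻¹ * σ * g ∈ Dq q := (hg σ).1 hσ
  have hc := f.2.2
  have h' : H1.mk (lvlD q) (ρ.comp (Dq q).subtype)
      (Z1map (LvlMap.comap lvlQ (Dq q).subtype) (isHomAlong_res ρ (Dq q).subtype) f) = 0 := h
  rw [H1.mk_eq_zero_iff] at h'
  obtain ⟨-, a, ha⟩ := h'
  have h1 : (f : GQ → A) (g⁻¹ * σ * g) = ρ (g⁻¹ * σ * g) a - a := congrFun ha ⟨_, hd⟩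
  refine ⟨ρ g a - (f : GQ → A) g, ?_⟩
  -- `f (σ g) = f (g d)`
  have e1 : (f : GQ → A) (σ * g) = ρ σ ((f : GQ → A) g) + (f : GQ → A) σ := hc σ g
  have e2 : (f : GQ → A) (g * (g⁻¹ * σ * g)) =
      ρ g ((f : GQ → A) (g⁻¹ * σ * g)) + (f : GQ → A) g := hc g _
  have e3 : g * (g⁻¹ * σ * g) = σ * g := by group
  rw [e3, e1, h1, map_sub] at e2
  have e4 : ρ g (ρ (g⁻¹ * σ * g) a) = ρ σ (ρ g a) := by
    have h5 : ρ g * ρ (g⁻¹ * σ * g) = ρ σ * ρ g := by rw [← map_mul, ← map_mul, e3]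
    exact congrArg (fun F : AddMonoid.End A => F a) h5
  rw [e4] at e2
  rw [map_sub]
  have e5 : (f : GQ → A) σ = ρ σ (ρ g a) - ρ g a + (f : GQ → A) g - ρ σ ((f : GQ → A) g) := by
    rw [← e2]
    abel
  rw [e5]
  abel

theorem isFrobeniusAt_conj {P : ValuationSubring Qb} {φ : GQ} {q : ℕ} (hφ : P.IsFrobeniusAt φ q)
    (g : GQ) : (g • P).IsFrobeniusAt (g * φ * g⁻¹) q := by
  refine ⟨E.conj_mem_decomposition_smul hφ.mem_decompositionSubgroup g, fun x => ?_⟩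
  obtain ⟨a, rfl⟩ := IsLocalRing.residue_surjective x
  rw [← IsLocalRing.ResidueField.residue_smul, ← map_pow, D.residue_eq_iff]
  show (g * φ * g⁻¹) (a : Qb) - (a : Qb) ^ q ∈ (g • P).nonunits
  have ha : g⁻¹ (a : Qb) ∈ P := by
    have := a.2
    rw [ValuationSubring.mem_pointwise_smul_iff_inv_smul_mem] at this
    exact this
  have h1 := ES.FrobDensity.sub_pow_mem_nonunits hφ ha
  rw [← E.smul_mem_nonunits_iff P g, map_sub, map_pow] at h1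
  have h2 : g (g⁻¹ (a : Qb)) = a := by
    rw [← AlgEquiv.mul_apply, mul_inv_cancel, AlgEquiv.one_apply]
  rw [h2] at h1
  exact h1

theorem frob_conj (q : Nat.Primes) (P P' : ValuationSubring Qb) (hP : P.LiesOverPrime q)
    (hP' : P'.LiesOverPrime q) (φ φ' : GQ) (hφ : P.IsFrobeniusAt φ q)
    (hφ' : P'.IsFrobeniusAt φ' q) :
    ∃ g i : GQ, i ∈ P'.inertiaSubgroupIn ℚ ∧ φ' = g * φ * g⁻¹ * i := by
  obtain ⟨g₁, rfl⟩ := D.exists_conj_place hP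
  obtain ⟨g₂, rfl⟩ := D.exists_conj_place hP'
  have h1 := isFrobeniusAt_conj hφ (g₂ * g₁⁻¹)
  rw [mul_smul, inv_smul_smul] at h1
  refine ⟨g₂ * g₁⁻¹, (g₂ * g₁⁻¹ * φ * (g₂ * g₁⁻¹)⁻¹)⁻¹ * φ', ?_, by group⟩
  set φ₁ := g₂ * g₁⁻¹ * φ * (g₂ * g₁⁻¹)⁻¹ with hφ₁
  have hmem : φ₁⁻¹ * φ' ∈ (g₂ • primeLocalPlace q).decompositionSubgroup ℚ :=
    Subgroup.mul_mem _ (Subgroup.inv_mem _ h1.mem_decompositionSubgroup)
      hφ'.mem_decompositionSubgroup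
  refine (D.mem_inertia_iff (⟨_, hmem⟩ : (g₂ • primeLocalPlace q).decompositionSubgroup ℚ)).2
    fun y => ?_
  have e : (⟨φ₁⁻¹ * φ', hmem⟩ : (g₂ • primeLocalPlace q).decompositionSubgroup ℚ) =
      (⟨φ₁, h1.mem_decompositionSubgroup⟩ : (g₂ • primeLocalPlace q).decompositionSubgroup ℚ)⁻¹ *
        ⟨φ', hφ'.mem_decompositionSubgroup⟩ := rfl
  rw [e, mul_smul, hφ'.smul_residue_eq, inv_smul_eq_iff, h1.smul_residue_eq]

end Fermat.Agent.S56.KS
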