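import Fermat.Agent.S56.KS.Defs
import Fermat.Agent.S56.Defs
import Fermat.Agent.S55.G.AlRam
import Fermat.Agent.S31.Cyclo

/-!
# S56 / KS / Cyc  [S56/KS-CYC]  (~200 lines)   cyclotomic input

(`IsCycDet p r0` itself is `isCycDet_of_hasMatrixRes` of `S56/DictTop.lean`.)
`exists_nonsquare_det`: PROOF. `FiniteField.exists_nonsquare` in `ZMod p` gives a non-square `a ≠ 0`; `S55.G.Al.exists_mem_Dq_cyclo` gives `g` with `cycloChar p g = a`.  `det (r0 g) = (a.val : k)`.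
 If `(a.val : k) * j² = 1` then `a * j² = 1` in `ZMod p` (`(n : k) = (m : k) ↔ (n : ZMod p) = (m : ZMod p)`: `CharP.cast_eq_iff_mod_eq` / `ZMod.natCast_eq_natCast_iff` + `CharP.natCast_eq_natCast`), so `a = (j⁻¹)²` is a square.
`exists_Hn`: PROOF. `χ` from `S31.CycloAux.exists_cyclo_nat (p ^ (n + 1))`, `H := χ.ker`.  Commutators: the target is commutative.  `h ∈ H`: `h μ = μ ^ 1` for `μ ^ p ^ (n+1) = 1` (`ZMod.val_one` needs `Fact (1 < p ^ (n+1))`),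
 in particular for `μ ^ p = 1`: `S55.E.cycloChar_eq_one`; then `det = ((1 : ZMod p).val : k) = 1`.  Level: first conjunct of `exists_cyclo_nat` (`L.fixingSubgroup ∈ lvlQ.sets`).
 Frobenius: second conjunct: `(q : ZMod (p ^ (n+1))) = 1`, so `p ^ (n+1) ∣ q - 1` (`ZMod.natCast_eq_natCast_iff'`/`(ZMod.natCast_eq_zero_iff _ _).1` on `q - 1`).
-/

set_option autoImplicit false

open Fermat.Agent.S53 Fermat.Agent.S55 ExtCitation

namespace Fermat.Agent.S56.KS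

theorem exists_nonsquare_det {k : Type} [Field k] (p : ℕ) [Fact p.Prime] [CharP k p] (hp2 : p ≠ 2)
    (r0 : GQ →* GL (Fin 2) k) (hdet : IsCycDet p r0) :
    ∃ g, ∀ j : ℕ, (r0 g : Mk k).det * (j : k) ^ 2 ≠ 1 := by
  obtain ⟨a, ha⟩ := FiniteField.exists_nonsquare (F := ZMod p)
    (by rw [ZMod.ringChar_zmod_n]; exact hp2)
  have ha0 : a ≠ 0 := fun h => ha (h ▸ IsSquare.zero)
  obtain ⟨g, -, hg⟩ := G.Al.exists_mem_Dq_cyclo (ℓ := p) (Units.mk0 a ha0)
  refine ⟨g, fun j hj => ha ?_⟩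
  have hd : (r0 g : Mk k).det = ((a.val : ℕ) : k) := by
    have := hdet g
    rw [hg] at this
    exact this
  rw [hd] at hj
  have h1 : ((a.val * j ^ 2 : ℕ) : k) = ((1 : ℕ) : k) := by
    push_cast
    exact hj
  rw [CharP.natCast_eq_natCast k p] at h1
  have h2 : ((a.val * j ^ 2 : ℕ) : ZMod p) = ((1 : ℕ) : ZMod p) :=
    (ZMod.natCast_eq_natCast_iff _ _ _).2 h1
  push_cast at h2
  rw [ZMod.natCast_zmod_val] at h2
  have hj0 : (j : ZMod p) ≠ 0 := by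
    intro h
    rw [h] at h2
    simp at h2
  refine ⟨(j : ZMod p)⁻¹, ?_⟩
  field_simp
  linear_combination h2

theorem exists_Hn {k : Type} [Field k] (p : ℕ) [Fact p.Prime] (n : ℕ)
    (r0 : GQ →* GL (Fin 2) k) (hdet : IsCycDet p r0) :
    ∃ H : Subgroup GQ, (∀ a b : GQ, a * b * a⁻¹ * b⁻¹ ∈ H) ∧
      (∀ h ∈ H, (r0 h : Mk k).det = 1 ∧ cycloChar p h = 1) ∧
      (∃ U ∈ lvlQ.sets, U ≤ H) ∧
      (∀ (q : ℕ) (A : ValuationSubring Qb) (σ : GQ), q.Prime → q ≠ p → A.LiesOverPrime q →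
        A.IsFrobeniusAt σ q → σ ∈ H → p ^ (n + 1) ∣ q - 1) := by
  have hp : p.Prime := Fact.out
  haveI : NeZero (p ^ (n + 1)) := ⟨pow_ne_zero _ hp.ne_zero⟩
  haveI : Fact (1 < p ^ (n + 1)) := ⟨Nat.one_lt_pow (Nat.succ_ne_zero n) hp.one_lt⟩
  haveI : Fact (1 < p) := ⟨hp.one_lt⟩
  obtain ⟨χ, ⟨L, hL, hLχ⟩, hfr, -, hact⟩ := S31.CycloAux.exists_cyclo_nat (p ^ (n + 1))
  refine ⟨χ.ker, fun a b => ?_, fun h hh => ?_, ⟨L.fixingSubgroup, ⟨L, hL, rfl⟩, fun σ hσ => ?_⟩,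
    fun q A σ hq hqp hA hFr hσ => ?_⟩
  · rw [MonoidHom.mem_ker, map_mul, map_mul, map_mul, map_inv, map_inv, mul_comm (χ a) (χ b),
      mul_inv_cancel_right, mul_inv_cancel]
  · have h1 : χ h = 1 := hh
    have h2 : cycloChar p h = 1 := by
      refine E.cycloChar_eq_one p h (fun t ht => ?_)
      have h3 : t ^ p ^ (n + 1) = 1 := by
        rw [pow_succ', pow_mul, ht, one_pow]
      have := hact h t h3
      rwa [h1, Units.val_one, ZMod.val_one, pow_one] at this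
    refine ⟨?_, h2⟩
    have := hdet h
    rw [h2, Units.val_one, ZMod.val_one, Nat.cast_one] at this
    exact this
  · exact hLχ σ (fun x hx => (IntermediateField.mem_fixingSubgroup_iff L σ).1 hσ x hx)
  · have h1 : χ σ = 1 := hσ
    have hnd : ¬ q ∣ p ^ (n + 1) := by
      intro h
      exact hqp ((Nat.prime_dvd_prime_iff_eq hq hp).1 (hq.dvd_of_dvd_pow h))
    have h2 := hfr q hq hnd A hA σ hFr
    rw [h1, Units.val_one] at h2
    have h3 : ((q - 1 : ℕ) : ZMod (p ^ (n + 1))) = 0 := by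
      rw [Nat.cast_sub hq.one_lt.le, ← h2]
      simp
    exact (ZMod.natCast_eq_zero_iff _ _).1 h3

end Fermat.Agent.S56.KS
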