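import Fermat.Agent.S56.KS.Defs

/-!
# S56 / KS / Tw : basic calculus of the twisted action (helper9)
-/

set_option autoImplicit false

noncomputable section

namespace Fermat.Agent.S56.KS.TwL

open Matrix Fermat.Agent.S56.KS

variable {k : Type*} [Field k] {Γ : Type*} [Group Γ]

theorem one (X : Mk k) : tw (1 : GL (Fin 2) k) X = X := by
  simp [tw]

theorem mul (g h : GL (Fin 2) k) (X : Mk k) : tw (g * h) X = tw g (tw h X) := by
  simp only [tw, Units.val_mul, Matrix.adjugate_mul_distrib, Matrix.mul_assoc]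

theorem add (g : GL (Fin 2) k) (X Y : Mk k) : tw g (X + Y) = tw g X + tw g Y := by
  simp only [tw, Matrix.mul_add, Matrix.add_mul]

theorem zero (g : GL (Fin 2) k) : tw g (0 : Mk k) = 0 := by
  simp [tw]

theorem sub (g : GL (Fin 2) k) (X Y : Mk k) : tw g (X - Y) = tw g X - tw g Y := by
  simp only [tw, Matrix.mul_sub, Matrix.sub_mul]

theorem smul (g : GL (Fin 2) k) (c : k) (X : Mk k) : tw g (c • X) = c • tw g X := by
  simp only [tw, Matrix.mul_smul, Matrix.smul_mul]

theorem trace (g : GL (Fin 2) k) (X : Mk k) : (tw g X).trace = (g : Mk k).det * X.trace := by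
  rw [tw, Matrix.trace_mul_cycle, Matrix.adjugate_mul, Matrix.smul_mul, Matrix.one_mul,
    Matrix.trace_smul, smul_eq_mul]

theorem one_mat (g : GL (Fin 2) k) : tw g (1 : Mk k) = (g : Mk k).det • (1 : Mk k) := by
  rw [tw, Matrix.mul_one, Matrix.mul_adjugate]

/-- the twisted action as a homomorphism -/
def hom (r : Γ →* GL (Fin 2) k) : Γ →* AddMonoid.End (Mk k) where
  toFun g := { toFun := tw (r g), map_zero' := zero _, map_add' := add _ }
  map_one' := by
    ext X : 1
    show tw (r 1) X = X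
    rw [map_one, one]
  map_mul' g h := by
    ext X : 1
    show tw (r (g * h)) X = tw (r g) (tw (r h) X)
    rw [map_mul, mul]

@[simp] theorem hom_apply (r : Γ →* GL (Fin 2) k) (g : Γ) (X : Mk k) : hom r g X = tw (r g) X := rfl

theorem psi_one {r : Γ →* GL (Fin 2) k} {ψ : Γ → Mk k} (h : IsTC r ψ) : ψ 1 = 0 := by
  have := h.mul 1 1
  rw [map_one, one, mul_one] at this
  exact left_eq_add.mp this

/-- conjugation: `tw (T g T⁻¹) (T X T⁻¹) = T (tw g X) T⁻¹` -/
theorem conj (T g : GL (Fin 2) k) (X : Mk k) :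
    tw (T * g * T⁻¹) ((T : Mk k) * X * ((T⁻¹ : GL (Fin 2) k) : Mk k)) =
      (T : Mk k) * tw g X * ((T⁻¹ : GL (Fin 2) k) : Mk k) := by
  have h1 : ((T⁻¹ : GL (Fin 2) k) : Mk k) * (T : Mk k) = 1 := by
    rw [← Units.val_mul, inv_mul_cancel, Units.val_one]
  have h2 : (T : Mk k) * ((T⁻¹ : GL (Fin 2) k) : Mk k) = 1 := by
    rw [← Units.val_mul, mul_inv_cancel, Units.val_one]
  have h3 : ((T⁻¹ : GL (Fin 2) k) : Mk k) * (((T⁻¹ : GL (Fin 2) k) : Mk k).adjugate *
      ((g : Mk k).adjugate * (T : Mk k).adjugate)) =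
      (g : Mk k).adjugate * ((T⁻¹ : GL (Fin 2) k) : Mk k) := by
    rw [← Matrix.mul_assoc, Matrix.mul_adjugate, Matrix.smul_mul, Matrix.one_mul]
    have h4 : (T : Mk k).adjugate = (T : Mk k).det • ((T⁻¹ : GL (Fin 2) k) : Mk k) := by
      have := Matrix.adjugate_mul (T : Mk k)
      calc (T : Mk k).adjugate = (T : Mk k).adjugate * ((T : Mk k) * ((T⁻¹ : GL (Fin 2) k) : Mk k)) := by
            rw [h2, Matrix.mul_one]
        _ = _ := by rw [← Matrix.mul_assoc, this, Matrix.smul_mul, Matrix.one_mul]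
    rw [h4, Matrix.mul_smul, smul_smul, ← Matrix.det_mul, h1, Matrix.det_one, one_smul]
  simp only [tw, Units.val_mul, Matrix.adjugate_mul_distrib, Matrix.mul_assoc]
  rw [← Matrix.mul_assoc ((T⁻¹ : GL (Fin 2) k) : Mk k) (T : Mk k), h1, Matrix.one_mul, h3]

end Fermat.Agent.S56.KS.TwL
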