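import Fermat.Agent.S56.KS.DualA
import Fermat.Agent.S56.KS.Tw
import Fermat.Agent.S56.Defs

/-!
# S56 / KS / DualB  [S56/KS-DUALB]  (~150 lines, cites DualA)

A cocycle `f` with values in `M' = (Ad0 k →+ ZMod p)` (action `dualRho (cycloChar p) (adRho r0)`: `(g φ) Y = χ g * φ (r0 g⁻¹ Y r0 g)`) is `f σ Y = T (tr (ψ σ Y))` for a twisted cocycle `ψ` (`KS.IsTC r0 ψ`).

PROOF. `T` from `exists_T`; `ψ σ :=` the `X` of `exists_T` for `φ = f σ` (choice).  Key identity, for `X` of trace zero, `g : GQ`, `Y : Ad0 k`: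
   `(dualRho χ (adRho r0) g (τ X)) Y = χ g * T (tr (X g⁻¹ Y g)) = T ((χ g).val * tr (g X g⁻¹ Y)) = T (tr (tw (r0 g) X * Y))`
 [`T` additive so `(j : ZMod p) * T a = T ((j : k) * a)` for `j : ℕ`; `IsCycDet`: `det (r0 g) = ((χ g).val : k)`; `adjugate g = det g • g⁻¹`; `tr` cyclic.]  `tw (r0 g) X` has trace `det g * tr X = 0`.
 `Z1`: `f (g h) = ρ' g (f h) + f g`; so `τ (ψ (g h)) = τ (tw (r0 g) (ψ h) + ψ g)` and `T_unique` gives `IsTC.mul`.
 If `ψ g = tw (r0 g) m - m` then `f = d0 ρ' (τ m)` (`τ m : Ad0 k →+ ZMod p`, `Y ↦ T (tr (m Y))`), and `LC1 f` is part of `hf`: `f ∈ B1`.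
-/

set_option autoImplicit false

open Fermat.Agent.S53 Fermat.Agent.S55 ExtCitation

namespace Fermat.Agent.S56.KS

theorem exists_tc {k : Type} [Field k] [Finite k] (p : ℕ) [Fact p.Prime] [CharP k p] (hp2 : p ≠ 2)
    (r0 : GQ →* GL (Fin 2) k) (hdet : IsCycDet p r0)
    (f : GQ → (Ad0 k →+ ZMod p)) (hf : f ∈ Z1 lvlQ (dualRho (cycloChar p) (adRho r0))) :
    ∃ (T : k →+ ZMod p) (ψ : GQ → Mk k), (∀ a : k, a ≠ 0 → ∃ c, T (c * a) ≠ 0) ∧ IsTC r0 ψ ∧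
      (∀ σ (Y : Ad0 k), f σ Y = T (Matrix.trace (ψ σ * (Y : M2 k)))) ∧
      (IsTB r0 ψ → f ∈ B1 lvlQ (dualRho (cycloChar p) (adRho r0))) := by
  have h2 : (2 : k) ≠ 0 := by
    intro h
    have h3 : ((2 : ℕ) : k) = 0 := by exact_mod_cast h
    rw [CharP.cast_eq_zero_iff k p] at h3
    exact hp2 ((Nat.prime_dvd_prime_iff_eq Fact.out Nat.prime_two).1 h3)
  haveI : NeZero p := ⟨(Fact.out : p.Prime).ne_zero⟩
  obtain ⟨T, hT, hrep⟩ := exists_T (k := k) p hp2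
  choose ψ hψtr hψ using fun σ => hrep (f σ)
  have hTnat : ∀ (j : ℕ) (a : k), (j : ZMod p) * T a = T ((j : k) * a) := by
    intro j a
    rw [← nsmul_eq_mul, ← nsmul_eq_mul, map_nsmul]
  have key : ∀ (g : GQ) (X : M2 k) (φ : Ad0 k →+ ZMod p),
      (∀ Y : Ad0 k, φ Y = T (Matrix.trace (X * (Y : M2 k)))) →
      ∀ Y : Ad0 k, dualRho (cycloChar p) (adRho r0) g φ Y =
        T (Matrix.trace (tw (r0 g) X * (Y : M2 k))) := by
    intro g X φ hφ Y
    rw [dualRho_apply, hφ, coe_adRho, map_inv, inv_inv]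
    have hχ : ((cycloChar p g : (ZMod p)ˣ) : ZMod p) =
        ((((cycloChar p g : (ZMod p)ˣ) : ZMod p).val : ℕ) : ZMod p) :=
      (ZMod.natCast_zmod_val _).symm
    rw [hχ, hTnat, ← hdet g]
    congr 1
    have hgi : (r0 g : M2 k) * (((r0 g)⁻¹ : GL (Fin 2) k) : M2 k) = 1 := by
      rw [← Units.val_mul, mul_inv_cancel, Units.val_one]
    have hadj : (r0 g : M2 k).adjugate =
        (r0 g : M2 k).det • (((r0 g)⁻¹ : GL (Fin 2) k) : M2 k) := by
      calc (r0 g : M2 k).adjugate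
          = (r0 g : M2 k).adjugate * ((r0 g : M2 k) * (((r0 g)⁻¹ : GL (Fin 2) k) : M2 k)) := by
            rw [hgi, Matrix.mul_one]
        _ = _ := by rw [← Matrix.mul_assoc, Matrix.adjugate_mul, Matrix.smul_mul, Matrix.one_mul]
    rw [tw, hadj, Matrix.mul_smul, Matrix.smul_mul, Matrix.trace_smul, smul_eq_mul]
    congr 1
    have e1 : X * ((((r0 g)⁻¹ : GL (Fin 2) k) : M2 k) * (Y : M2 k) * (r0 g : M2 k)) =
        (X * (((r0 g)⁻¹ : GL (Fin 2) k) : M2 k) * (Y : M2 k)) * (r0 g : M2 k) := by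
      simp only [Matrix.mul_assoc]
    have e2 : (r0 g : M2 k) * X * (((r0 g)⁻¹ : GL (Fin 2) k) : M2 k) * (Y : M2 k) =
        (r0 g : M2 k) * (X * (((r0 g)⁻¹ : GL (Fin 2) k) : M2 k) * (Y : M2 k)) := by
      simp only [Matrix.mul_assoc]
    rw [e1, e2, Matrix.trace_mul_comm]
  refine ⟨T, ψ, hT, ⟨hψtr, fun g h => ?_⟩, hψ, ?_⟩
  · have h0 : ψ (g * h) - (ψ g + tw (r0 g) (ψ h)) = 0 := by
      refine T_unique p h2 T hT _ ?_ (fun Y => ?_)
      · rw [Matrix.trace_sub, Matrix.trace_add, TwL.trace, hψtr, hψtr, hψtr]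
        simp
      · rw [Matrix.sub_mul, Matrix.add_mul, Matrix.trace_sub, Matrix.trace_add, map_sub, map_add,
          ← hψ, ← hψ, ← key g (ψ h) (f h) (hψ h) Y, hf.2 g h, AddMonoidHom.add_apply]
        abel
    exact sub_eq_zero.1 h0
  · rintro ⟨m, -, hm⟩
    let a : Ad0 k →+ ZMod p :=
      { toFun := fun Y => T (Matrix.trace (m * (Y : M2 k)))
        map_zero' := by simp
        map_add' := fun Y Z => by
          rw [AddSubgroup.coe_add, Matrix.mul_add, Matrix.trace_add, map_add] }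
    refine ⟨hf.1, a, ?_⟩
    funext σ
    ext Y
    show f σ Y = dualRho (cycloChar p) (adRho r0) σ a Y - a Y
    rw [key σ m a (fun _ => rfl) Y, hψ, hm σ, Matrix.sub_mul, Matrix.trace_sub, map_sub]
    rfl

end Fermat.Agent.S56.KS
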