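import Fermat.Agent.S56.KS.Defs
import Fermat.Agent.S56.Defs

/-!
# S56 / KS / Line  [S56/KS-LINE]  (~200 lines; API of `ResidualGaloisRep.baseChange`, `HasMatrixRes`)

`f12_of`: PROOF. Let `G' ≤ GQ` with `g, h ∉ G' → g h ∈ G'`, and `v ≠ 0` in `k²` with `r0 g v ∈ k v` for all `g ∈ G'`.  `h0` gives a basis `b` of `ρbar.V` with `toMatrix b b (ρbar.ρ σ) = r0 σ`; `x := ∑ v i • b i ≠ 0`, `ρbar.ρ g x = c_g • x` for `g ∈ G'`
 (`LinearMap.toMatrix_mulVec_repr`).  For any field extension `K` of `k`: `V := K ∙ (1 ⊗ₜ x) ≤ K ⊗[k] ρbar.V` is stable under `(ρbar.ρ g).baseChange K`, `g ∈ G'` (`LinearMap.baseChange_tmul`), `V ≠ ⊥` (`1 ⊗ₜ x ≠ 0`: `b.baseChange K` is a basis)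
 and `V ≠ ⊤` (`finrank_span_singleton = 1 ≠ 2 = finrank (K ⊗ V)`).
 If `G' = ⊤`: contradiction with `habs` (`K = AlgebraicClosure k`).  Otherwise pick `a ∉ G'`; `Subgroup.index_eq_two_iff : H.index = 2 ↔ ∃ a, ∀ b, Xor' (b * a ∈ H) (b ∈ H)` gives `G'.index = 2`: contradiction with `hTW k G'` (`K = k`, `Algebra.id`).
-/

set_option autoImplicit false

open Polynomial Fermat.Agent.S53 Fermat.Agent.S55

namespace Fermat.Agent.S56.KS

open TensorProduct in
theorem f12_of {k : Type} [Field k] (ρbar : ResidualGaloisRep k)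
    (habs : ρbar.IsAbsolutelyIrreducible)
    (hTW : ∀ (K : Type) [Field K] [Algebra k K] (G : Subgroup Gal), G.index = 2 →
      ∀ V : Submodule K (ρbar.baseChange K).V,
        (∀ σ ∈ G, ∀ x ∈ V, (ρbar.baseChange K).ρ σ x ∈ V) → V = ⊥ ∨ V = ⊤)
    (r0 : Gal →* GL (Fin 2) k) (h0 : HasMatrixRes ρbar (fun σ => (r0 σ : M2 k))) : F12 r0 := by
  intro G' hG' v hv
  by_contra hcon
  push Not at hcon
  obtain ⟨b, hb⟩ := h0
  let x : ρbar.V := b.equivFun.symm v
  have hxv : b.equivFun x = v := b.equivFun.apply_symm_apply v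
  have hx : x ≠ 0 := by
    intro h
    apply hv
    rw [← hxv, h, map_zero]
  have hstab : ∀ g ∈ G', ∃ c : k, ρbar.ρ g x = c • x := by
    intro g hg
    obtain ⟨c, hc⟩ := hcon g hg
    refine ⟨c, b.equivFun.injective ?_⟩
    have h1 := LinearMap.toMatrix_mulVec_repr b b (ρbar.ρ g) x
    rw [hb g] at h1
    rw [map_smul, hxv, ← hc]
    have h2 : (b.repr x : Fin 2 → k) = v := hxv
    rw [h2] at h1
    exact h1.symm
  have key : ∀ (K : Type) [Field K] [Algebra k K], ∃ V : Submodule K (ρbar.baseChange K).V,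
      (∀ σ ∈ G', ∀ y ∈ V, (ρbar.baseChange K).ρ σ y ∈ V) ∧ V ≠ ⊥ ∧ V ≠ ⊤ := by
    intro K _ _
    have hne : ((1 : K) ⊗ₜ[k] x : K ⊗[k] ρbar.V) ≠ 0 := by
      intro h
      apply hx
      apply b.repr.injective
      ext i
      have h1 := congrArg (fun y => (b.baseChange K).repr y i) h
      simp only [Module.Basis.baseChange_repr_tmul, map_zero, Finsupp.coe_zero, Pi.zero_apply] at h1
      rw [Algebra.smul_def, mul_one] at h1
      simpa using h1
    refine ⟨(K ∙ ((1 : K) ⊗ₜ[k] x) : Submodule K (K ⊗[k] ρbar.V)), ?_, ?_, ?_⟩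
    · intro σ hσ y hy
      obtain ⟨a, rfl⟩ := Submodule.mem_span_singleton.1 hy
      obtain ⟨c, hc⟩ := hstab σ hσ
      show (ρbar.ρ σ).baseChange K (a • ((1 : K) ⊗ₜ[k] x)) ∈ _
      rw [map_smul, LinearMap.baseChange_tmul, hc, TensorProduct.tmul_smul]
      refine Submodule.smul_mem _ _ ?_
      rw [← algebraMap_smul K c ((1 : K) ⊗ₜ[k] x)]
      exact Submodule.smul_mem _ _ (Submodule.mem_span_singleton_self _)
    · intro h
      exact hne ((Submodule.span_singleton_eq_bot).1 h)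
    · intro h
      have h1 : Module.finrank K (K ∙ ((1 : K) ⊗ₜ[k] x) : Submodule K (K ⊗[k] ρbar.V)) = 1 :=
        finrank_span_singleton hne
      have h2 : Module.finrank K (K ⊗[k] ρbar.V) = 2 := (ρbar.baseChange K).finrank_eq
      have h3 : (K ∙ ((1 : K) ⊗ₜ[k] x) : Submodule K (K ⊗[k] ρbar.V)) = ⊤ := h
      rw [h3, finrank_top, h2] at h1
      omega
  by_cases htop : G' = ⊤
  · obtain ⟨V, h1, h2, h3⟩ := key (AlgebraicClosure k)
    rcases habs V (fun σ y hy => h1 σ (htop ▸ Subgroup.mem_top σ) y hy) with h | h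
    · exact h2 h
    · exact h3 h
  · obtain ⟨a, ha⟩ : ∃ a, a ∉ G' := by
      by_contra h
      push Not at h
      exact htop ((Subgroup.eq_top_iff' G').2 h)
    have hidx : G'.index = 2 := by
      rw [Subgroup.index_eq_two_iff]
      refine ⟨a, fun c => ?_⟩
      by_cases hc : c ∈ G'
      · refine Or.inr ⟨hc, fun h => ha ?_⟩
        have := G'.mul_mem (G'.inv_mem hc) h
        rwa [inv_mul_cancel_left] at this
      · exact Or.inl ⟨hG' c a hc ha, hc⟩
    obtain ⟨V, h1, h2, h3⟩ := key k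
    rcases hTW k G' hidx V h1 with h | h
    · exact h2 h
    · exact h3 h

end Fermat.Agent.S56.KS
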