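import Fermat.Agent.S56.KS.Abs
import Fermat.Agent.S56.KS.DualB
import Fermat.Agent.S56.KS.Line
import Fermat.Agent.S56.KS.Cyc
import Fermat.Agent.S56.KS.Cheb
import Fermat.Agent.S56.Tan.Res

/-!
# S56 / KS / Main : one dual Selmer class is killed by one Taylor-Wiles prime (helper9; assembly)
-/

set_option autoImplicit false

open Polynomial Fermat.Agent.S53 Fermat.Agent.S55 ExtCitation

namespace Fermat.Agent.S56.KS

theorem ks_mat {k : Type} [Field k] [Finite k] (p : ℕ) [Fact p.Prime] [CharP k p] (hp2 : p ≠ 2)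
    (r0 : GQ →* GL (Fin 2) k) (hsm : IsSm r0) (hdet : IsCycDet p r0) (hF : F12 r0)
    (hsp : Split r0)
    (x : H1 lvlQ (dualRho (cycloChar p) (adRho r0))) (hx : x ≠ 0) (n : ℕ) (S : Finset ℕ) :
    ∃ (q : Nat.Primes) (A : ValuationSubring Qb) (σ : GQ), (q : ℕ) ∉ S ∧
      p ^ (n + 1) ∣ (q : ℕ) - 1 ∧ A.LiesOverPrime q ∧ A.IsFrobeniusAt σ q ∧
      (r0 σ : Mk k).det = 1 ∧ (r0 σ : Mk k).trace ^ 2 ≠ 4 ∧
      loc1 (dualRho (cycloChar p) (adRho r0)) q x ≠ 0 := by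
  have h2 : (2 : k) ≠ 0 := two_ne_zero_of_char p hp2
  obtain ⟨f, rfl⟩ := H1.mk_surjective _ _ x
  have hfB : (f : GQ → (Ad0 k →+ ZMod p)) ∉ B1 lvlQ (dualRho (cycloChar p) (adRho r0)) := by
    rwa [Ne, H1.mk_eq_zero_iff] at hx
  obtain ⟨T, ψ, hT, hTC, hfψ, hTB⟩ := exists_tc p hp2 r0 hdet f f.2
  obtain ⟨H, hcomm, hH, ⟨U1, hU1, hU1H⟩, hfrob⟩ := exists_Hn p n r0 hdet
  have hnTB : ¬ IsTB r0 ψ := fun h => hfB (hTB h)
  have hex : ∃ σ ∈ H, (r0 σ : Mk k).trace ^ 2 ≠ 4 ∧ ((r0 σ : Mk k) * ψ σ).trace ≠ 0 := by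
    by_contra hcon
    push Not at hcon
    exact hnTB (abs_main p hp2 r0 hF hsp (exists_nonsquare_det p hp2 r0 hdet) H hcomm
      (fun h hh => (hH h hh).1) ψ hTC hcon)
  obtain ⟨σ, hσH, hreg, hne⟩ := hex
  obtain ⟨c, hc⟩ := hT _ hne
  obtain ⟨U2, hU2, hf2⟩ := f.2.1
  obtain ⟨U3, hU3, hr3⟩ := hsm
  obtain ⟨W, hW, hWle⟩ := lvlQ.inter U1 hU1 U2 hU2
  obtain ⟨W', hW', hW'le⟩ := lvlQ.inter W hW U3 hU3
  obtain ⟨q, A, σ', hqS, hA, hFr, hmem⟩ := cheb_level W' hW' (insert p S) σ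
  have hu1 : σ⁻¹ * σ' ∈ U1 := (hWle (hW'le hmem).1).1
  have hu2 : σ⁻¹ * σ' ∈ U2 := (hWle (hW'le hmem).1).2
  have hu3 : σ⁻¹ * σ' ∈ U3 := (hW'le hmem).2
  have hσ' : σ * (σ⁻¹ * σ') = σ' := mul_inv_cancel_left σ σ'
  have hr : r0 σ' = r0 σ := by
    rw [← hσ', map_mul, hr3 _ hu3, mul_one]
  have hf : (f : GQ → (Ad0 k →+ ZMod p)) σ' = (f : GQ → (Ad0 k →+ ZMod p)) σ := by
    rw [← hσ']
    exact hf2 σ _ hu2
  have hσ'H : σ' ∈ H := by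
    rw [← hσ']
    exact H.mul_mem hσH (hU1H hu1)
  have hqp : (q : ℕ) ≠ p := fun h => hqS (by rw [h]; exact Finset.mem_insert_self _ _)
  refine ⟨q, A, σ', fun h => hqS (Finset.mem_insert_of_mem h),
    hfrob q A σ' q.2 hqp hA hFr hσ'H, hA, hFr, (hH σ' hσ'H).1, by rw [hr]; exact hreg, ?_⟩
  intro hloc
  obtain ⟨a, ha⟩ := loc_cob _ f q hloc A hA σ' hFr.mem_decompositionSubgroup
  -- the test vector
  have hYtr : (c • ((r0 σ : M2 k) - ((r0 σ : M2 k).trace / 2) • (1 : M2 k))).trace = 0 := by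
    rw [Matrix.trace_smul, Matrix.trace_sub, Matrix.trace_smul, Matrix.trace_one, Fintype.card_fin,
      smul_eq_mul, smul_eq_mul]
    push_cast
    field_simp
    ring
  let Y : Ad0 k := ⟨c • ((r0 σ : M2 k) - ((r0 σ : M2 k).trace / 2) • (1 : M2 k)), hYtr⟩
  have e1 : (f : GQ → (Ad0 k →+ ZMod p)) σ' Y = T (c * ((r0 σ : Mk k) * ψ σ).trace) := by
    rw [hf, hfψ]
    congr 1
    show (ψ σ * (c • ((r0 σ : M2 k) - ((r0 σ : M2 k).trace / 2) • (1 : M2 k)))).trace = _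
    rw [Matrix.mul_smul, Matrix.trace_smul, Matrix.mul_sub, Matrix.trace_sub, Matrix.mul_smul,
      Matrix.trace_smul, Matrix.mul_one, hTC.tr, smul_zero, sub_zero, Matrix.trace_mul_comm,
      smul_eq_mul]
  have e2 : adRho r0 σ'⁻¹ Y = Y := by
    apply Subtype.ext
    rw [coe_adRho, map_inv, inv_inv, hr]
    show (((r0 σ)⁻¹ : GL (Fin 2) k) : M2 k) *
      (c • ((r0 σ : M2 k) - ((r0 σ : M2 k).trace / 2) • (1 : M2 k))) * (r0 σ : M2 k) = _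
    have h3 : (((r0 σ)⁻¹ : GL (Fin 2) k) : M2 k) * (r0 σ : M2 k) = 1 := by
      rw [← Units.val_mul, inv_mul_cancel, Units.val_one]
    rw [Matrix.mul_smul, Matrix.smul_mul, Matrix.mul_sub, Matrix.sub_mul, h3, Matrix.one_mul,
      Matrix.mul_smul, Matrix.smul_mul, Matrix.mul_one, h3]
  apply hc
  rw [← e1, ha, AddMonoidHom.sub_apply, dualRho_apply, (hH σ' hσ'H).2, e2]
  simp

end Fermat.Agent.S56.KS
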