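import Fermat.Agent.S56.KS.Col

/-!
# S56 / KS / Irr  [S56/KS-IRR]  (Mathlib only, ~250 lines)

No line of trace zero matrices is stable under conjugation.

PROOF. Suppose `A ≠ 0`, `tr A = 0` and for all `g` there is `c_g` with `g A = c_g A g` (write `g` for `r g`).  `A² = δ`, `δ := - det A` (2x2, trace zero: direct computation / Cayley-Hamilton).
(a) `δ = 0`: `M := A`, `det M = 0`, `M ≠ 0`; `col` gives `w = M u₀ ≠ 0` with `im M = k w`.  `g w = g A u₀ = c_g A (g u₀) ∈ k w` for ALL `g`: contradiction with `hF ⊤` (`⊤` satisfies the index condition trivially).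
(b) `δ ≠ 0`: from `g A = c A g`: `g A² = c² A² g`, so `c² = 1`, `c = ± 1`.  `G' := {g | g A = A g}` is a subgroup, and `g, h ∉ G'` implies `g A = - A g`, `h A = - A h`, so `g h ∈ G'`.  So `hF G'` applies: no `G'`-stable line.
 (b1) `δ = s²` for some `s ∈ k` (`s ≠ 0`): `M := A + s`, `det M = det A + s² = 0` (trace zero), `M ≠ 0` (otherwise `A = - s`, `tr A = - 2 s ≠ 0`).  `col`: `w = M u₀`; for `g ∈ G'`: `g w = M (g u₀) ∈ k w`.  Contradiction.
 (b2) `δ` is not a square: let `g ∈ G'`.  By `hsp`, `charpoly g` has a root `α ∈ k`, so `det (g - α) = 0` and there is `v ≠ 0` with `g v = α v` (`Matrix.exists_mulVec_eq_zero_iff`).  `g (A v) = A g v = α A v`.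
   `v, A v` are linearly independent (if `A v = t v` then `δ v = A² v = t² v`, `δ = t²`).  So `g = α` on a basis, in particular `g e₀ = α e₀`.  So the line `k e₀` is `G'`-stable.  Contradiction.
   (concretely: `det [v, A v] ≠ 0`; write `e₀ = λ v + μ A v`.)
-/

set_option autoImplicit false

namespace Fermat.Agent.S56.KS

open Matrix Polynomial

theorem noAdLine {k : Type*} [Field k] {Γ : Type*} [Group Γ] (h2 : (2 : k) ≠ 0)
    (r : Γ →* GL (Fin 2) k) (hF : F12 r) (hsp : Split r) : NoAdLine r := by
  intro A htr hA0
  by_contra hcon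
  push Not at hcon
  have hsq := sq_of_trace_zero A htr
  by_cases hδ : A.det = 0
  · exact not_noLine r A hδ hA0 ⊤ (fun g _ => hcon g)
      (hF ⊤ (fun g h hg => absurd (Subgroup.mem_top g) hg))
  · have hpm : ∀ g, (r g : Mk k) * A = A * r g ∨ (r g : Mk k) * A = -(A * r g) := by
      intro g
      obtain ⟨c, hc⟩ := hcon g
      have h1 : (r g : Mk k) * (A * A) = (c * c) • ((A * A) * (r g : Mk k)) := by
        calc (r g : Mk k) * (A * A) = ((r g : Mk k) * A) * A := by rw [mul_assoc]
          _ = c • (A * ((r g : Mk k) * A)) := by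
            conv_lhs => rw [hc, smul_mul_assoc, mul_assoc]
          _ = (c * c) • ((A * A) * (r g : Mk k)) := by
            rw [hc, mul_smul_comm, smul_smul, mul_assoc]
      rw [hsq, mul_smul_comm, mul_one, smul_mul_assoc, one_mul, smul_smul] at h1
      have h2' : ((-A.det) - c * c * (-A.det)) • (r g : Mk k) = 0 := by
        rw [sub_smul, ← h1, sub_self]
      rcases smul_eq_zero.mp h2' with h3 | h3
      · have h4 : (c - 1) * (c + 1) = 0 := by
          have : A.det * ((c - 1) * (c + 1)) = 0 := by linear_combination h3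
          exact (mul_eq_zero.mp this).resolve_left hδ
        rcases mul_eq_zero.mp h4 with h5 | h5
        · left; rw [hc, sub_eq_zero.mp h5, one_smul]
        · right; rw [hc, eq_neg_of_add_eq_zero_left h5, neg_smul, one_smul]
      · exact absurd h3 (r g).ne_zero
    let Ag : GL (Fin 2) k := Matrix.GeneralLinearGroup.mkOfDetNeZero A hδ
    let G' : Subgroup Γ := (Subgroup.centralizer {Ag}).comap r
    have hmem : ∀ g, g ∈ G' ↔ (r g : Mk k) * A = A * r g := by
      intro g
      rw [Subgroup.mem_comap, Subgroup.mem_centralizer_iff]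
      constructor
      · intro h
        have := h Ag rfl
        exact (congrArg (fun x : GL (Fin 2) k => (x : Mk k)) this).symm
      · rintro h _ rfl
        exact Units.ext h.symm
    have hidx : ∀ g h, g ∉ G' → h ∉ G' → g * h ∈ G' := by
      intro g h hg hh
      rw [hmem] at hg hh ⊢
      have e1 := (hpm g).resolve_left hg
      have e2 := (hpm h).resolve_left hh
      rw [map_mul, Units.val_mul, mul_assoc, e2, mul_neg, ← mul_assoc, e1, neg_mul, neg_neg,
        mul_assoc]
    have hN := hF G' hidx
    by_cases hs : ∃ s : k, s * s = -A.det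
    · obtain ⟨s, hs⟩ := hs
      have hs0 : s ≠ 0 := by
        rintro rfl
        apply hδ
        linear_combination hs
      refine not_noLine r (A + s • (1 : Mk k)) ?_ ?_ G' (fun g hg => ⟨1, ?_⟩) hN
      · have e : A + s • (1 : Mk k) = A - (-s) • (1 : Mk k) := by rw [neg_smul, sub_neg_eq_add]
        rw [e, det_sub_smul_one, htr]
        linear_combination hs
      · intro h
        have h3 := congrArg Matrix.trace h
        rw [Matrix.trace_add, htr, Matrix.trace_smul, Matrix.trace_one] at h3
        simp at h3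
        rcases h3 with h3 | h3
        · exact hs0 h3
        · exact h2 h3
      · rw [one_smul, mul_add, add_mul, (hmem g).mp hg, mul_smul_comm, smul_mul_assoc, mul_one,
          one_mul]
    · obtain ⟨g, hg, hc⟩ := hN ![1, 0] (by
        intro h
        have := congrFun h 0
        simp at this)
      obtain ⟨α, β, hαβ⟩ := hsp g
      have hdetN := det_sub_root _ hαβ
      have hN0 : (r g : Mk k) - α • (1 : Mk k) = 0 := by
        by_contra hne
        obtain ⟨u₀, hw, hu⟩ := col _ hdetN hne
        obtain ⟨t, ht⟩ := hu (A.mulVec u₀)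
        have hcm : A * ((r g : Mk k) - α • (1 : Mk k)) = ((r g : Mk k) - α • (1 : Mk k)) * A := by
          rw [mul_sub, sub_mul, (hmem g).mp hg, mul_smul_comm, smul_mul_assoc, mul_one, one_mul]
        have hAw : A.mulVec (((r g : Mk k) - α • (1 : Mk k)).mulVec u₀) =
            t • ((r g : Mk k) - α • (1 : Mk k)).mulVec u₀ := by
          rw [Matrix.mulVec_mulVec, hcm, ← Matrix.mulVec_mulVec, ht]
        apply hs
        refine ⟨t, ?_⟩
        have h5 : (A * A).mulVec (((r g : Mk k) - α • (1 : Mk k)).mulVec u₀) =
            (t * t) • ((r g : Mk k) - α • (1 : Mk k)).mulVec u₀ := by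
          rw [← Matrix.mulVec_mulVec, hAw, Matrix.mulVec_smul, hAw, smul_smul]
        rw [hsq, Matrix.smul_mulVec, Matrix.one_mulVec] at h5
        have h6 : ((-A.det) - t * t) • ((r g : Mk k) - α • (1 : Mk k)).mulVec u₀ = 0 := by
          rw [sub_smul, h5, sub_self]
        rcases smul_eq_zero.mp h6 with h7 | h7
        · linear_combination -h7
        · exact absurd h7 hw
      apply hc α
      rw [sub_eq_zero.mp hN0, Matrix.smul_mulVec, Matrix.one_mulVec]

end Fermat.Agent.S56.KS
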