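import Fermat.Agent.S56.KS.Col

/-!
# S56 / KS / SS0  [S56/KS-SS0]  (Mathlib only, ~220 lines)

`H ≤ Γ` contains all commutators (so it is normal: `g h g⁻¹ = (g h g⁻¹ h⁻¹) h`), `det = 1` on `H`.  Then some `σ ∈ H` has `tr² ≠ 4`.

PROOF. Suppose `tr(h)² = 4` for all `h ∈ H` (write `h` for `r h`).
CASE 1: some `h ∈ H` is not scalar (`h ≠ ε • 1` for `ε = tr h / 2`, `ε² = 1`).  `N := h - ε`: `tr N = 0`, `det N = 0` (`det (h - ε) = det h - ε tr h + ε² = 1 - 2 + 1`), `N² = 0`, `N ≠ 0`.
  `col N`: `w = N u₀ ≠ 0`, `im N = k w`; `N w = 0`; `ker N = k w` (if `N v = 0` and `v ∉ k w` then `N = 0` on the basis `w, v`).  CLAIM: `k w` is `Γ`-stable (contradiction with `hF ⊤`).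
  Let `g ∈ Γ`, `h' := g h g⁻¹ ∈ H`, `N' := g N g⁻¹ = h' - ε`, `τ := tr (N N')`.  `h h' ∈ H`: `tr (h h') = 2 + τ` (`ε² = 1`, `tr N = tr N' = 0`), so `τ (τ + 4) = 0`.
  `h h h' ∈ H`, `h² = 1 + 2 ε N`: `tr (h² h') = 2 ε (1 + τ)`, so `(1 + τ)² = 1`, `τ (τ + 2) = 0`.  Hence `τ = 0` (`2 ≠ 0`).
  For trace zero 2x2 matrices `N N' + N' N = tr (N N') • 1 = 0`.  `w' := g w = N' (g u₀)`.  `N w' = N N' (g u₀) = - N' N (g u₀) ∈ - N' (k w)`, and it is in `im N = k w`:
  write `N (g u₀) = t w`, so `N w' = - t N' w`; and `N w' = t' w`.  Apply `N'`: `N' N w' = - t N'² w = 0`, so `t' N' w = 0`.  If `t' ≠ 0` then `N' w = 0`, so `N w' = 0`.  In all cases `N w' = 0`, so `w' ∈ ker N = k w`.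
CASE 2: every `h ∈ H` is scalar, `h = ± 1`.  Then `a b = ± b a` for all `a, b ∈ Γ` (`a b a⁻¹ b⁻¹ ∈ H`).  There is a non scalar `g ∈ Γ` (else `k e₀` is stable).  `G' := {a | a g = g a}` is a subgroup and `a, b ∉ G'` implies `a b ∈ G'`.
  `hsp g`: eigenvalue `α ∈ k`, `M := g - α`, `det M = 0`, `M ≠ 0`; `col M`: `w = M u₀`; `a w = M (a u₀) ∈ k w` for `a ∈ G'`.  Contradiction with `hF G'`.
-/

set_option autoImplicit false

namespace Fermat.Agent.S56.KS

open Matrix Polynomial

/-- two orthogonal isotropic vectors of the quadratic space of trace zero matrices are proportional -/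
theorem iso_prop {k : Type*} [Field k] (N N' : Mk k) (h1 : N.trace = 0) (h2 : N'.trace = 0)
    (d1 : N.det = 0) (d2 : N'.det = 0) (ht : (N * N').trace = 0) (hN : N ≠ 0) :
    ∃ t : k, N' = t • N := by
  rw [Matrix.trace_fin_two] at h1 h2 ht
  rw [Matrix.det_fin_two] at d1 d2
  simp only [Matrix.mul_apply, Fin.sum_univ_two] at ht
  have e1 : N 1 1 = -N 0 0 := by linear_combination h1
  have e2 : N' 1 1 = -N' 0 0 := by linear_combination h2
  rw [e1] at d1 ht
  rw [e2] at d2 ht
  by_cases hb : N 0 1 = 0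
  · by_cases hc : N 1 0 = 0
    · exfalso
      apply hN
      have ha : N 0 0 = 0 := by
        have : N 0 0 ^ 2 = 0 := by rw [hb] at d1; linear_combination -d1
        exact pow_eq_zero_iff (two_ne_zero) |>.mp this
      ext i j
      fin_cases i <;> fin_cases j <;> simp [ha, hb, hc, e1]
    · -- `c ≠ 0`
      have ha : N 0 0 = 0 := by
        have : N 0 0 ^ 2 = 0 := by rw [hb] at d1; linear_combination -d1
        exact pow_eq_zero_iff (two_ne_zero) |>.mp this
      have hb' : N' 0 1 = 0 := by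
        rw [ha, hb] at ht
        have : N 1 0 * N' 0 1 = 0 := by linear_combination ht
        exact (mul_eq_zero.mp this).resolve_left hc
      have ha' : N' 0 0 = 0 := by
        have : N' 0 0 ^ 2 = 0 := by rw [hb'] at d2; linear_combination -d2
        exact pow_eq_zero_iff (two_ne_zero) |>.mp this
      refine ⟨N' 1 0 / N 1 0, ?_⟩
      ext i j
      fin_cases i <;> fin_cases j <;> simp [ha, hb, ha', hb', e1, e2]
      field_simp
  · -- `b ≠ 0`
    have hsq : (N' 0 0 * N 0 1 - N 0 0 * N' 0 1) ^ 2 = 0 := by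
      linear_combination (-(N 0 1) ^ 2) * d2 + (-(N' 0 1) ^ 2) * d1 + (-(N 0 1) * N' 0 1) * ht
    have ha' : N' 0 0 * N 0 1 = N 0 0 * N' 0 1 := by
      have := pow_eq_zero_iff (two_ne_zero) |>.mp hsq
      linear_combination this
    refine ⟨N' 0 1 / N 0 1, ?_⟩
    have hc' : N' 1 0 * N 0 1 = N' 0 1 * N 1 0 := by
      apply mul_left_cancel₀ hb
      linear_combination (N 0 1) * ht - (2 * N 0 0) * ha' + (2 * N' 0 1) * d1
    ext i j
    fin_cases i <;> fin_cases j <;> simp [e1, e2] <;> field_simp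
    · linear_combination ha'
    · linear_combination hc'
    · linear_combination ha'

theorem ss0_tr1 {k : Type*} [Field k] (ε : k) (N N' : Mk k) (h1 : N.trace = 0)
    (h2 : N'.trace = 0) :
    ((ε • (1 : Mk k) + N) * (ε • (1 : Mk k) + N')).trace = 2 * ε ^ 2 + (N * N').trace := by
  rw [add_mul, mul_add, mul_add, Matrix.trace_add, Matrix.trace_add, Matrix.trace_add,
    smul_mul_assoc, one_mul, smul_mul_assoc, one_mul, mul_smul_comm, mul_one, Matrix.trace_smul,
    Matrix.trace_smul, Matrix.trace_smul, Matrix.trace_smul, h1, h2, Matrix.trace_one]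
  simp
  ring

theorem ss0_tr2 {k : Type*} [Field k] (ε : k) (N N' : Mk k) (h1 : N.trace = 0)
    (h2 : N'.trace = 0) (hsq : N * N = 0) :
    ((ε • (1 : Mk k) + N) * (ε • (1 : Mk k) + N) * (ε • (1 : Mk k) + N')).trace =
      2 * ε ^ 3 + 2 * ε * (N * N').trace := by
  have e : (ε • (1 : Mk k) + N) * (ε • (1 : Mk k) + N) = (ε ^ 2) • (1 : Mk k) + (2 * ε) • N := by
    rw [add_mul, mul_add, mul_add, hsq, smul_mul_assoc, one_mul, smul_mul_assoc, one_mul,
      mul_smul_comm, mul_one, smul_smul, add_zero, add_assoc, ← add_smul]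
    congr 2 <;> ring
  rw [e, add_mul, mul_add, mul_add, Matrix.trace_add, Matrix.trace_add, Matrix.trace_add,
    smul_mul_assoc, one_mul, smul_mul_assoc, one_mul, smul_mul_assoc, smul_mul_assoc,
    mul_smul_comm, mul_one, Matrix.trace_smul,
    Matrix.trace_smul, Matrix.trace_smul, Matrix.trace_smul, Matrix.trace_smul, h1, h2,
    Matrix.trace_one]
  simp
  ring

theorem exists_regular {k : Type*} [Field k] {Γ : Type*} [Group Γ] (h2 : (2 : k) ≠ 0)
    (r : Γ →* GL (Fin 2) k) (hF : F12 r) (hsp : Split r) (H : Subgroup Γ)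
    (hcomm : ∀ a b : Γ, a * b * a⁻¹ * b⁻¹ ∈ H) (hdet : ∀ h ∈ H, (r h : Mk k).det = 1) :
    ∃ σ ∈ H, (r σ : Mk k).trace ^ 2 ≠ 4 := by
  by_contra hcon
  push Not at hcon
  have h4 : (4 : k) ≠ 0 := by
    have : (4 : k) = 2 * 2 := by norm_num
    rw [this]; exact mul_ne_zero h2 h2
  have hTop := hF ⊤ (fun g h hg => absurd (Subgroup.mem_top g) hg)
  by_cases hsc : ∀ h ∈ H, ∃ ε : k, (r h : Mk k) = ε • (1 : Mk k)
  · -- CASE 2
    have hpm : ∀ a b : Γ, (r a : Mk k) * r b = r b * r a ∨ (r a : Mk k) * r b = -(r b * r a) := by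
      intro a b
      obtain ⟨ε, hε⟩ := hsc _ (hcomm a b)
      have htr := hcon _ (hcomm a b)
      rw [hε, Matrix.trace_smul, Matrix.trace_one] at htr
      simp at htr
      have hε2 : (ε - 1) * (ε + 1) = 0 := by
        apply mul_left_cancel₀ h4
        linear_combination htr
      have e : (r a : Mk k) * r b = ε • ((r b : Mk k) * r a) := by
        have e1 : r a * r b = r (a * b * a⁻¹ * b⁻¹) * (r b * r a) := by
          rw [← map_mul, ← map_mul, ← map_mul]
          congr 1
          group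
        have e2 := congrArg (fun x : GL (Fin 2) k => (x : Mk k)) e1
        simp only [Units.val_mul] at e2
        rw [e2, hε, smul_mul_assoc, one_mul]
      rcases mul_eq_zero.mp hε2 with h5 | h5
      · left; rw [e, sub_eq_zero.mp h5, one_smul]
      · right; rw [e, eq_neg_of_add_eq_zero_left h5, neg_smul, one_smul]
    obtain ⟨g, -, hg⟩ := hTop ![1, 0] (by
      intro h
      have := congrFun h 0
      simp at this)
    let G' : Subgroup Γ := (Subgroup.centralizer {r g}).comap r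
    have hmem : ∀ a, a ∈ G' ↔ (r a : Mk k) * r g = r g * r a := by
      intro a
      rw [Subgroup.mem_comap, Subgroup.mem_centralizer_iff]
      constructor
      · intro h
        have := h (r g) rfl
        exact (congrArg (fun x : GL (Fin 2) k => (x : Mk k)) this).symm
      · rintro h _ rfl
        exact Units.ext h.symm
    have hidx : ∀ a b, a ∉ G' → b ∉ G' → a * b ∈ G' := by
      intro a b ha hb
      rw [hmem] at ha hb ⊢
      have e1 := (hpm a g).resolve_left ha
      have e2 := (hpm b g).resolve_left hb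
      rw [map_mul, Units.val_mul, mul_assoc, e2, mul_neg, ← mul_assoc, e1, neg_mul, neg_neg,
        mul_assoc]
    obtain ⟨α, β, hαβ⟩ := hsp g
    refine not_noLine r ((r g : Mk k) - α • (1 : Mk k)) (det_sub_root _ hαβ) ?_ G'
      (fun a ha => ⟨1, ?_⟩) (hF G' hidx)
    · intro h0
      apply hg α
      rw [sub_eq_zero.mp h0, Matrix.smul_mulVec, Matrix.one_mulVec]
    · rw [one_smul, mul_sub, sub_mul, (hmem a).mp ha, mul_smul_comm, smul_mul_assoc, mul_one,
        one_mul]
  · -- CASE 1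
    push Not at hsc
    obtain ⟨h, hh, hns⟩ := hsc
    obtain ⟨ε, hεd⟩ : ∃ ε : k, ε = (r h : Mk k).trace / 2 := ⟨_, rfl⟩
    have htr : (r h : Mk k).trace = 2 * ε := by rw [hεd]; field_simp
    have hε2 : ε ^ 2 = 1 := by
      have := hcon h hh
      rw [htr] at this
      apply mul_left_cancel₀ h4
      linear_combination this
    obtain ⟨N, hNd⟩ : ∃ N : Mk k, N = (r h : Mk k) - ε • (1 : Mk k) := ⟨_, rfl⟩
    have hhN : (r h : Mk k) = ε • (1 : Mk k) + N := by rw [hNd]; abel
    have hN0 : N ≠ 0 := by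
      rw [hNd]
      exact sub_ne_zero.mpr (hns ε)
    have hNtr : N.trace = 0 := by
      rw [hNd, Matrix.trace_sub, htr, Matrix.trace_smul, Matrix.trace_one]
      simp
      ring
    have hNdet : N.det = 0 := by
      rw [hNd, det_sub_smul_one, htr, hdet h hh]
      linear_combination -hε2
    have hNsq : N * N = 0 := by
      rw [sq_of_trace_zero N hNtr, hNdet, neg_zero, zero_smul]
    refine not_noLine r N hNdet hN0 ⊤ (fun g _ => ?_) hTop
    obtain ⟨N', hN'd⟩ : ∃ N' : Mk k, N' = (r g : Mk k) * N * ((r g)⁻¹ : GL (Fin 2) k) := ⟨_, rfl⟩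
    have hN'tr : N'.trace = 0 := by rw [hN'd, Matrix.trace_units_conj, hNtr]
    have hN'det : N'.det = 0 := by rw [hN'd, Matrix.det_units_conj, hNdet]
    have hh' : g * h * g⁻¹ ∈ H := by
      have : g * h * g⁻¹ = (g * h * g⁻¹ * h⁻¹) * h := by group
      rw [this]
      exact H.mul_mem (hcomm g h) hh
    have hh'N : (r (g * h * g⁻¹) : Mk k) = ε • (1 : Mk k) + N' := by
      rw [map_mul, map_mul, map_inv, Units.val_mul, Units.val_mul, hhN, hN'd, mul_add, add_mul,
        mul_smul_comm, mul_one, smul_mul_assoc, Units.mul_inv]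
    have T1 := hcon _ (H.mul_mem hh hh')
    rw [map_mul, Units.val_mul, hh'N, hhN, ss0_tr1 ε N N' hNtr hN'tr, hε2] at T1
    have T2 := hcon _ (H.mul_mem (H.mul_mem hh hh) hh')
    rw [map_mul, map_mul, Units.val_mul, Units.val_mul, hh'N, hhN,
      ss0_tr2 ε N N' hNtr hN'tr hNsq] at T2
    have hτ : (N * N').trace = 0 := by
      obtain ⟨τ, hτ⟩ : ∃ τ, τ = (N * N').trace := ⟨_, rfl⟩
      rw [← hτ] at T1 T2 ⊢
      have a1 : τ * (τ + 4) = 0 := by linear_combination T1
      have a2 : τ * (τ + 2) = 0 := by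
        have e3 : ε ^ 3 = ε := by linear_combination ε * hε2
        rw [e3] at T2
        apply mul_left_cancel₀ h4
        linear_combination T2 - 4 * (1 + τ) ^ 2 * hε2
      by_contra hne
      have b1 := (mul_eq_zero.mp a1).resolve_left hne
      have b2 := (mul_eq_zero.mp a2).resolve_left hne
      apply h2
      linear_combination b1 - b2
    obtain ⟨t, ht⟩ := iso_prop N N' hNtr hN'tr hNdet hN'det hτ hN0
    refine ⟨t, ?_⟩
    have e : (r g : Mk k) * N = N' * (r g : Mk k) := by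
      rw [hN'd, mul_assoc, Units.inv_mul, mul_one]
    rw [e, ht, smul_mul_assoc]

end Fermat.Agent.S56.KS
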