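import Fermat.Agent.S56.KS.LA3

/-!
# S56 / KS / U  [S56/KS-U]  (Mathlib only, ~180 lines)

A twisted cocycle with `tr (σ ψ(σ)) = 0` for all regular `σ ∈ H` vanishes on `ker r`.   (write `g` for `r g`; `tw g X = g X adj g`; `adj g = det g • g⁻¹`.)

PROOF. `H` is normal (`g h g⁻¹ = (g h g⁻¹ h⁻¹) h`).  `ψ 1 = 0`.  If `r a = 1` then `ψ (a b) = ψ a + ψ b` (`tw 1 X = X`).
STEP 1: `u ∈ H`, `r u = 1`; `X := ψ u`.  For `g ∈ Γ`, `σ := g σ₀ g⁻¹ ∈ H` is regular (same trace), `σ u ∈ H`, `r (σ u) = r σ`.  `0 = tr (σ ψ (σ u)) = tr (σ ψ σ) + tr (σ σ X adj σ) = 0 + det σ * tr (σ X) = tr (σ X)`.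
  `A := σ₀ - (tr σ₀ / 2) • 1`: `tr A = 0`, `A ≠ 0` (otherwise `σ₀` is scalar `s`, `det = s² = 1`, `tr² = 4 s² = 4`), and `tr (g A g⁻¹ X) = tr (g σ₀ g⁻¹ X) - (tr σ₀ / 2) tr X = 0` for all `g`.
  Suppose `X ≠ 0`.  `hA A`: `g₁` with `g₁ A ≠ c A g₁` for all `c`, i.e. `A' := g₁ A g₁⁻¹ ∉ k A`.  `hA X`: `h₁` with `Y := h₁ X h₁⁻¹ ∉ k X`.
  `tr (A X) = 0` (`g = 1`), `tr (A' X) = 0` (`g = g₁`), `tr (A Y) = tr (h₁⁻¹ A h₁ X) = 0` (`g = h₁⁻¹`), `tr (A' Y) = 0` (`g = h₁⁻¹ g₁`).  `la3` : contradiction.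
STEP 2: `r u = 1`, `X := ψ u`.  For `g ∈ Γ`: `w := g u g⁻¹ u⁻¹ ∈ H`, `r w = 1`, so `ψ w = 0` and `ψ (g u g⁻¹) = ψ (w u) = ψ u`.
  `ψ (g u) = ψ g + tw g X` and `ψ (g u) = ψ ((g u g⁻¹) g) = ψ (g u g⁻¹) + ψ g = X + ψ g`.  So `g X adj g = X`; multiply by `g` on the right: `det g • g X = X g`, `g X = (det g)⁻¹ • X g` for all `g`: by `hA X`, `X = 0`.
-/

set_option autoImplicit false

namespace Fermat.Agent.S56.KS

theorem uAux_tr {k : Type*} [Field k] (S X : Mk k) :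
    (S * (S * X * S.adjugate)).trace = S.det * (S * X).trace := by
  rw [← mul_assoc, Matrix.trace_mul_comm, ← mul_assoc, ← mul_assoc, Matrix.adjugate_mul,
    Matrix.smul_mul, one_mul, Matrix.smul_mul, Matrix.trace_smul, smul_eq_mul]

theorem uAux_conj {k : Type*} [Field k] (g : GL (Fin 2) k) (A : Mk k) {c : k}
    (h : (g : Mk k) * A * ((g⁻¹ : GL (Fin 2) k) : Mk k) = c • A) :
    (g : Mk k) * A = c • (A * (g : Mk k)) := by
  have h1 : (g : Mk k) * A * ((g⁻¹ : GL (Fin 2) k) : Mk k) * (g : Mk k) = c • A * (g : Mk k) := by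
    rw [h]
  rw [mul_assoc, Units.inv_mul, mul_one, Matrix.smul_mul] at h1
  exact h1

theorem uAux_step1 {k : Type*} [Field k] {Γ : Type*} [Group Γ] (h2 : (2 : k) ≠ 0)
    (r : Γ →* GL (Fin 2) k) (hA : NoAdLine r) (S0 X : Mk k) (hdet : S0.det = 1)
    (hreg : S0.trace ^ 2 ≠ 4) (htrX : X.trace = 0)
    (hT : ∀ g : Γ, ((r g : Mk k) * S0 * (((r g)⁻¹ : GL (Fin 2) k) : Mk k) * X).trace = 0) :
    X = 0 := by
  by_contra hX
  set s : k := S0.trace / 2 with hs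
  have hs2 : S0.trace = 2 * s := by rw [hs]; field_simp
  set A : Mk k := S0 - s • (1 : Mk k) with hAdef
  have htrA : A.trace = 0 := by
    rw [hAdef, Matrix.trace_sub, Matrix.trace_smul, Matrix.trace_one, Fintype.card_fin, hs2]
    simp; ring
  have hA0 : A ≠ 0 := by
    intro h0
    have hG : S0 = s • (1 : Mk k) := sub_eq_zero.1 h0
    have h1 := hdet
    rw [hG, Matrix.det_smul, Matrix.det_one, Fintype.card_fin, mul_one] at h1
    apply hreg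
    rw [hs2]
    linear_combination 4 * h1
  have hK : ∀ g : Γ, ((r g : Mk k) * A * (((r g)⁻¹ : GL (Fin 2) k) : Mk k) * X).trace = 0 := by
    intro g
    have e : (r g : Mk k) * A * (((r g)⁻¹ : GL (Fin 2) k) : Mk k) * X =
        (r g : Mk k) * S0 * (((r g)⁻¹ : GL (Fin 2) k) : Mk k) * X - s • X := by
      simp only [hAdef, mul_sub, sub_mul, Matrix.mul_smul, Matrix.smul_mul, mul_one]
      rw [Units.mul_inv, one_mul]
    rw [e, Matrix.trace_sub, hT, Matrix.trace_smul, htrX, smul_zero, sub_zero]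
  obtain ⟨g₁, hg₁⟩ := hA A htrA hA0
  obtain ⟨h₁, hh₁⟩ := hA X htrX hX
  have t1 : (A * X).trace = 0 := by
    have := hK 1
    simpa using this
  have t3 := hK g₁
  have t2 : (A * ((r h₁ : Mk k) * X * (((r h₁)⁻¹ : GL (Fin 2) k) : Mk k))).trace = 0 := by
    have := hK h₁⁻¹
    rw [map_inv, inv_inv] at this
    rw [← this, ← mul_assoc, Matrix.trace_mul_comm]
    simp only [mul_assoc]
  have t4 : ((r g₁ : Mk k) * A * (((r g₁)⁻¹ : GL (Fin 2) k) : Mk k) *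
      ((r h₁ : Mk k) * X * (((r h₁)⁻¹ : GL (Fin 2) k) : Mk k))).trace = 0 := by
    have := hK (h₁⁻¹ * g₁)
    rw [map_mul, map_inv, mul_inv_rev, inv_inv, Units.val_mul, Units.val_mul] at this
    rw [← this, ← mul_assoc, Matrix.trace_mul_comm]
    simp only [mul_assoc]
  have htrA' : ((r g₁ : Mk k) * A * (((r g₁)⁻¹ : GL (Fin 2) k) : Mk k)).trace = 0 := by
    rw [Matrix.trace_mul_cycle, Units.inv_mul, one_mul, htrA]
  have htrY : ((r h₁ : Mk k) * X * (((r h₁)⁻¹ : GL (Fin 2) k) : Mk k)).trace = 0 := by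
    rw [Matrix.trace_mul_cycle, Units.inv_mul, one_mul, htrX]
  rcases la3 h2 A _ X _ htrA htrA' htrX htrY t1 t2 t3 t4 with h | ⟨c, h⟩ | h | ⟨c, h⟩
  · exact hA0 h
  · exact hg₁ c (uAux_conj _ _ h)
  · exact hX h
  · exact hh₁ c (uAux_conj _ _ h)

theorem vanish_ker {k : Type*} [Field k] {Γ : Type*} [Group Γ] (h2 : (2 : k) ≠ 0)
    (r : Γ →* GL (Fin 2) k) (ψ : Γ → Mk k) (hψ : IsTC r ψ) (hA : NoAdLine r) (H : Subgroup Γ)
    (hcomm : ∀ a b : Γ, a * b * a⁻¹ * b⁻¹ ∈ H) (hdet : ∀ h ∈ H, (r h : Mk k).det = 1)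
    (σ₀ : Γ) (hσ₀ : σ₀ ∈ H) (hreg : (r σ₀ : Mk k).trace ^ 2 ≠ 4)
    (h5 : ∀ σ ∈ H, (r σ : Mk k).trace ^ 2 ≠ 4 → ((r σ : Mk k) * ψ σ).trace = 0) :
    ∀ u, r u = 1 → ψ u = 0 := by
  have tw_one : ∀ X : Mk k, tw (1 : GL (Fin 2) k) X = X := by
    intro X; simp [tw]
  have hmul1 : ∀ a b, r a = 1 → ψ (a * b) = ψ a + ψ b := by
    intro a b ha; rw [hψ.mul, ha, tw_one]
  have hnorm : ∀ g h, h ∈ H → g * h * g⁻¹ ∈ H := by
    intro g h hh
    have : g * h * g⁻¹ = (g * h * g⁻¹ * h⁻¹) * h := by group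
    rw [this]; exact H.mul_mem (hcomm g h) hh
  have step1 : ∀ u ∈ H, r u = 1 → ψ u = 0 := by
    intro u hu hru
    refine uAux_step1 h2 r hA (r σ₀ : Mk k) (ψ u) (hdet σ₀ hσ₀) hreg (hψ.tr u) ?_
    intro g
    have hσ : g * σ₀ * g⁻¹ ∈ H := hnorm g σ₀ hσ₀
    have hrσ : ((r (g * σ₀ * g⁻¹) : GL (Fin 2) k) : Mk k) =
        (r g : Mk k) * (r σ₀ : Mk k) * (((r g)⁻¹ : GL (Fin 2) k) : Mk k) := by
      rw [map_mul, map_mul, map_inv]; rfl
    have htr : ((r (g * σ₀ * g⁻¹) : GL (Fin 2) k) : Mk k).trace = (r σ₀ : Mk k).trace := by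
      rw [hrσ, Matrix.trace_mul_cycle, Units.inv_mul, one_mul]
    have hreg' : ((r (g * σ₀ * g⁻¹) : GL (Fin 2) k) : Mk k).trace ^ 2 ≠ 4 := by
      rw [htr]; exact hreg
    have h1 := h5 _ hσ hreg'
    have hru' : r (g * σ₀ * g⁻¹ * u) = r (g * σ₀ * g⁻¹) := by rw [map_mul, hru, mul_one]
    have h3 := h5 _ (H.mul_mem hσ hu) (by rw [hru']; exact hreg')
    rw [hru', hψ.mul, mul_add, Matrix.trace_add, h1, zero_add] at h3
    unfold tw at h3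
    rw [uAux_tr, hdet _ hσ, one_mul, hrσ] at h3
    exact h3
  intro u hru
  by_contra hX
  obtain ⟨g, hg⟩ := hA (ψ u) (hψ.tr u) hX
  have hw : r (g * u * g⁻¹ * u⁻¹) = 1 := by simp [hru]
  have hψw := step1 _ (hcomm g u) hw
  have e1 : ψ (g * u * g⁻¹) = ψ u := by
    have : g * u * g⁻¹ = (g * u * g⁻¹ * u⁻¹) * u := by group
    rw [this, hmul1 _ _ hw, hψw, zero_add]
  have e2 : ψ (g * u) = ψ g + tw (r g) (ψ u) := hψ.mul g u
  have e3 : ψ (g * u) = ψ u + ψ g := by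
    have : g * u = (g * u * g⁻¹) * g := by group
    rw [this, hmul1 _ _ (by simp [hru]), e1]
  have e4 : tw (r g) (ψ u) = ψ u := by
    have := e2.symm.trans e3
    rw [add_comm] at this
    exact add_right_cancel this
  have hd : (r g : Mk k).det ≠ 0 := by
    have := (r g).isUnit
    exact ((Matrix.isUnit_iff_isUnit_det _).1 this).ne_zero
  apply hg ((r g : Mk k).det)⁻¹
  have e5 : (r g : Mk k) * ψ u * (r g : Mk k).adjugate * (r g : Mk k) = ψ u * (r g : Mk k) := by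
    have e6 : (r g : Mk k) * ψ u * (r g : Mk k).adjugate = ψ u := e4
    rw [e6]
  rw [mul_assoc, Matrix.adjugate_mul, Matrix.mul_smul, mul_one] at e5
  rw [← e5, smul_smul, inv_mul_cancel₀ hd, one_smul]

end Fermat.Agent.S56.KS
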