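import Fermat.Agent.S56.KS.GT
import Fermat.Agent.S56.KS.Irr
import Fermat.Agent.S56.KS.SS0
import Fermat.Agent.S56.KS.U

/-!
# S56 / KS / Abs : the abstract theorem (helper9; assembly)

`desc` : descent to the finite group `r.range`.
`abs_main` : a twisted cocycle with `tr (σ ψ(σ)) = 0` for all regular `σ ∈ H` is a coboundary.
-/

set_option autoImplicit false

namespace Fermat.Agent.S56.KS

open Matrix

theorem desc {k : Type*} [Field k] [Finite k] {Γ : Type*} [Group Γ] (p : ℕ)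
    [Fact p.Prime] [CharP k p] (hp2 : p ≠ 2)
    (r : Γ →* GL (Fin 2) k) (ψ : Γ → Mk k) (hψ : IsTC r ψ) (hker : ∀ u, r u = 1 → ψ u = 0)
    (hline : NoLine r ⊤) (hsp : Split r)
    (hns : ∃ g, ∀ j : ℕ, (r g : Mk k).det * (j : k) ^ 2 ≠ 1) : IsTB r ψ := by
  classical
  have hwd : ∀ g g', r g = r g' → ψ g = ψ g' := by
    intro g g' h
    have h1 : r (g⁻¹ * g') = 1 := by rw [map_mul, map_inv, h, inv_mul_cancel]
    have h2 := hψ.mul g (g⁻¹ * g')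
    rw [hker _ h1, TwL.zero, add_zero, mul_inv_cancel_left] at h2
    exact h2.symm
  let ψ' : ↥r.range → Mk k := fun x => ψ (Classical.choose x.2)
  have hψ'r : ∀ g (h : r g ∈ r.range), ψ' ⟨r g, h⟩ = ψ g := by
    intro g h
    exact hwd _ _ (Classical.choose_spec h)
  have hsurj : ∀ x : ↥r.range, ∃ g, x = ⟨r g, ⟨g, rfl⟩⟩ := by
    rintro ⟨_, g, rfl⟩
    exact ⟨g, rfl⟩
  have hTC : IsTC r.range.subtype ψ' := by
    refine ⟨fun x => hψ.tr _, fun x y => ?_⟩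
    obtain ⟨g, rfl⟩ := hsurj x
    obtain ⟨h, rfl⟩ := hsurj y
    have e : (⟨r g, ⟨g, rfl⟩⟩ * ⟨r h, ⟨h, rfl⟩⟩ : ↥r.range) = ⟨r (g * h), ⟨g * h, rfl⟩⟩ :=
      Subtype.ext (map_mul r g h).symm
    rw [e, hψ'r, hψ'r, hψ'r, hψ.mul]
    rfl
  have hfin : Finite (GL (Fin 2) k) := inferInstance
  have := gt p hp2 r.range.subtype (Subtype.val_injective) ψ' hTC ?_ ?_ ?_
  · obtain ⟨m, hm, h⟩ := this
    refine ⟨m, hm, fun g => ?_⟩
    rw [← hψ'r g ⟨g, rfl⟩, h]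
    rfl
  · intro v hv
    obtain ⟨g, -, hg⟩ := hline v hv
    exact ⟨⟨r g, ⟨g, rfl⟩⟩, Subgroup.mem_top _, hg⟩
  · intro x
    obtain ⟨g, rfl⟩ := hsurj x
    exact hsp g
  · obtain ⟨g, hg⟩ := hns
    exact ⟨⟨r g, ⟨g, rfl⟩⟩, hg⟩

theorem abs_main {k : Type*} [Field k] [Finite k] {Γ : Type*} [Group Γ] (p : ℕ)
    [Fact p.Prime] [CharP k p] (hp2 : p ≠ 2)
    (r : Γ →* GL (Fin 2) k) (hF : F12 r) (hsp : Split r)
    (hns : ∃ g, ∀ j : ℕ, (r g : Mk k).det * (j : k) ^ 2 ≠ 1)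
    (H : Subgroup Γ) (hcomm : ∀ a b : Γ, a * b * a⁻¹ * b⁻¹ ∈ H)
    (hdet : ∀ h ∈ H, (r h : Mk k).det = 1) (ψ : Γ → Mk k) (hψ : IsTC r ψ)
    (h5 : ∀ σ ∈ H, (r σ : Mk k).trace ^ 2 ≠ 4 → ((r σ : Mk k) * ψ σ).trace = 0) : IsTB r ψ := by
  have h2 : (2 : k) ≠ 0 := two_ne_zero_of_char p hp2
  obtain ⟨σ₀, hσ₀, hreg⟩ := exists_regular h2 r hF hsp H hcomm hdet
  have hker := vanish_ker h2 r ψ hψ (noAdLine h2 r hF hsp) H hcomm hdet σ₀ hσ₀ hreg h5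
  exact desc p hp2 r ψ hψ hker (hF ⊤ (fun _ _ _ _ => Subgroup.mem_top _)) hsp hns

end Fermat.Agent.S56.KS
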