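import Mathlib

/-!
# S56 / KS / Alg1  [S56/KS-ALG1]  (Mathlib only, ~150 lines)

`alg_one` : the case `B ⊆ 𝔽_p b₀`, `z = 0`.
PROOF. If `b₀ = 0` then `B = 0`, and `y 0 = 0`, `x 0 = 0` from `hy`, `hx` at `(0, 0)`: take `η = κ = 0`.  Otherwise `η := y b₀ / b₀`; `y` is additive on `B` (`z = 0`), so `y (j b₀) = j y b₀` (induction; `j b₀ ∈ B`);
`x₀ b := x b + η b²` is additive on `B`, so `x₀ (j b₀) = j x₀ b₀`; `κ := x₀ b₀ / b₀`.

`card_seven` : if `B` is not contained in a line `𝔽_p b₀` then `|B| ≥ 7` (indeed `≥ p² ≥ 9`).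
PROOF. e.g. `k` is a `ZMod p`-algebra (`ZMod.algebra k p`), `B` a `ZMod p`-submodule (`AddSubgroup.toZModSubmodule`), `Nat.card B = p ^ finrank` (`Module.card_eq_pow_finrank`),
`finrank ≤ 1 ↔ ∃ v, ∀ w, ∃ c, c • v = w` (`finrank_le_one_iff`), `c • v = (c.val : k) * v`.  So `finrank ≥ 2`, `|B| ≥ p² ≥ 9`.
(or: exhibit 7 distinct elements `0, b₀, 2 b₀, b₁, b₁ + b₀, b₁ + 2 b₀, 2 b₁`.)
-/

set_option autoImplicit false

namespace Fermat.Agent.S56.KS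

theorem alg_one {k : Type*} [Field k] (B : AddSubgroup k) (x y z : k → k)
    (hy : ∀ b ∈ B, ∀ b' ∈ B, y (b + b') = y b + y b' + b * z b')
    (hx : ∀ b ∈ B, ∀ b' ∈ B, x (b + b') = x b + x b' - 2 * b * y b' - b ^ 2 * z b')
    (hz0 : ∀ b ∈ B, z b = 0)
    (b₀ : k) (hb₀ : b₀ ∈ B) (hcyc : ∀ b ∈ B, ∃ j : ℕ, b = (j : k) * b₀) :
    ∃ η κ : k, ∀ b ∈ B, z b = 0 ∧ y b = η * b ∧ x b = κ * b - η * b ^ 2 := by
  have hy0 : y 0 = 0 := by
    have h := hy 0 B.zero_mem 0 B.zero_mem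
    rw [add_zero] at h
    linear_combination -h
  have hx0 : x 0 = 0 := by
    have h := hx 0 B.zero_mem 0 B.zero_mem
    rw [add_zero] at h
    linear_combination -h
  have hmem : ∀ j : ℕ, (j : k) * b₀ ∈ B := by
    intro j
    have := B.nsmul_mem hb₀ j
    rwa [nsmul_eq_mul] at this
  by_cases hb0 : b₀ = 0
  · refine ⟨0, 0, fun b hb => ?_⟩
    obtain ⟨j, rfl⟩ := hcyc b hb
    rw [hb0, mul_zero]
    exact ⟨hz0 0 B.zero_mem, by rw [hy0]; ring, by rw [hx0]; ring⟩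
  obtain ⟨η, hη⟩ : ∃ η, η = y b₀ / b₀ := ⟨_, rfl⟩
  have hη' : η * b₀ = y b₀ := by
    rw [hη]
    field_simp
  have hyj : ∀ j : ℕ, y ((j : k) * b₀) = η * ((j : k) * b₀) := by
    intro j
    induction j with
    | zero => simp [hy0]
    | succ j ih =>
      have h := hy _ (hmem j) b₀ hb₀
      rw [hz0 b₀ hb₀, ih] at h
      have e : ((j + 1 : ℕ) : k) * b₀ = (j : k) * b₀ + b₀ := by
        push_cast
        ring
      rw [e, h]
      linear_combination -hη'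
  obtain ⟨κ, hκ⟩ : ∃ κ, κ = (x b₀ + η * b₀ ^ 2) / b₀ := ⟨_, rfl⟩
  have hκ' : κ * b₀ = x b₀ + η * b₀ ^ 2 := by
    rw [hκ]
    field_simp
  have hxj : ∀ j : ℕ, x ((j : k) * b₀) = κ * ((j : k) * b₀) - η * ((j : k) * b₀) ^ 2 := by
    intro j
    induction j with
    | zero => simp [hx0]
    | succ j ih =>
      have h := hx _ (hmem j) b₀ hb₀
      rw [hz0 b₀ hb₀, ih, ← hη'] at h
      have e : ((j + 1 : ℕ) : k) * b₀ = (j : k) * b₀ + b₀ := by
        push_cast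
        ring
      rw [e, h]
      linear_combination -hκ'
  refine ⟨η, κ, fun b hb => ?_⟩
  obtain ⟨j, rfl⟩ := hcyc b hb
  exact ⟨hz0 _ hb, hyj j, hxj j⟩

theorem card_seven {k : Type*} [Field k] [Finite k] (p : ℕ) [Fact p.Prime] [CharP k p] (hp2 : p ≠ 2)
    (B : AddSubgroup k) (hB : ¬ ∃ b₀ ∈ B, ∀ b ∈ B, ∃ j : ℕ, b = (j : k) * b₀) :
    7 ≤ Nat.card B := by
  classical
  have hp3 : 3 ≤ p := by
    have := (Fact.out : p.Prime).two_le
    omega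
  have hp0 : (p : ℤ) ≠ 0 := by
    have := (Fact.out : p.Prime).pos
    omega
  obtain ⟨b₀, hb₀, hb₀0⟩ : ∃ b₀ ∈ B, b₀ ≠ 0 := by
    by_contra h
    push Not at h
    exact hB ⟨0, B.zero_mem, fun b hb => ⟨0, by rw [h b hb]; simp⟩⟩
  obtain ⟨b₁, hb₁, hb₁n⟩ : ∃ b₁ ∈ B, ∀ j : ℕ, b₁ ≠ (j : k) * b₀ := by
    by_contra h
    push Not at h
    exact hB ⟨b₀, hb₀, h⟩
  have hnat : ∀ a : ℤ, ∃ j : ℕ, (j : k) = (a : k) := by
    intro a
    refine ⟨(a % p).toNat, ?_⟩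
    have h1 : (((a % p).toNat : ℤ) : k) = ((a % p : ℤ) : k) := by
      rw [Int.toNat_of_nonneg (Int.emod_nonneg a hp0)]
    rw [Int.cast_natCast] at h1
    rw [h1, CharP.intCast_eq_intCast k p]
    exact Int.mod_modEq a p
  have hinv : ∀ u : ℤ, (u : k) ≠ 0 → ∃ w : ℤ, (w : k) * (u : k) = 1 := by
    intro u hu
    have : Fintype k := Fintype.ofFinite k
    refine ⟨u ^ (Fintype.card k - 2), ?_⟩
    have h1 := FiniteField.pow_card_sub_one_eq_one (u : k) hu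
    have h2 : 1 < Fintype.card k := Fintype.one_lt_card
    rw [Int.cast_pow, ← pow_succ]
    have e : Fintype.card k - 2 + 1 = Fintype.card k - 1 := by omega
    rw [e, h1]
  have hkey : ∀ u v : ℤ, (u : k) ≠ 0 → (u : k) * b₁ ≠ (v : k) * b₀ := by
    intro u v hu h
    obtain ⟨w, hw⟩ := hinv u hu
    obtain ⟨j, hj⟩ := hnat (w * v)
    apply hb₁n j
    rw [hj, Int.cast_mul]
    linear_combination (w : k) * h - b₁ * hw
  have hsmall : ∀ a : ℤ, |a| < 3 → (a : k) = 0 → a = 0 := by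
    intro a ha h
    have h1 := (CharP.intCast_eq_zero_iff k p a).1 h
    exact Int.eq_zero_of_abs_lt_dvd h1 (lt_of_lt_of_le ha (by exact_mod_cast hp3))
  let f : Fin 3 × Fin 3 → B := fun ij =>
    ⟨((ij.1 : ℕ) : k) * b₀ + ((ij.2 : ℕ) : k) * b₁, by
      have h1 := B.nsmul_mem hb₀ (ij.1 : ℕ)
      have h2 := B.nsmul_mem hb₁ (ij.2 : ℕ)
      rw [nsmul_eq_mul] at h1 h2
      exact B.add_mem h1 h2⟩
  have hinj : Function.Injective f := by
    rintro ⟨i, j⟩ ⟨i', j'⟩ h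
    have h1 : ((i : ℕ) : k) * b₀ + ((j : ℕ) : k) * b₁ = ((i' : ℕ) : k) * b₀ + ((j' : ℕ) : k) * b₁ :=
      congrArg Subtype.val h
    have h2 : ((((j : ℕ) : ℤ) - ((j' : ℕ) : ℤ) : ℤ) : k) * b₁ =
        ((((i' : ℕ) : ℤ) - ((i : ℕ) : ℤ) : ℤ) : k) * b₀ := by
      push_cast
      linear_combination h1
    have hi := i.2
    have hi' := i'.2
    have hj := j.2
    have hj' := j'.2
    have hjj : (((j : ℕ) : ℤ) - ((j' : ℕ) : ℤ)) = 0 := by
      apply hsmall _ (by rw [abs_lt]; omega)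
      by_contra hne
      exact hkey _ _ hne h2
    rw [hjj, Int.cast_zero, zero_mul] at h2
    have hii : (((i' : ℕ) : ℤ) - ((i : ℕ) : ℤ)) = 0 := by
      apply hsmall _ (by rw [abs_lt]; omega)
      exact (mul_eq_zero.1 h2.symm).resolve_right hb₀0
    have e1 : i = i' := Fin.ext (by omega)
    have e2 : j = j' := Fin.ext (by omega)
    rw [e1, e2]
  have h9 : Nat.card (Fin 3 × Fin 3) ≤ Nat.card B := Nat.card_le_card_of_injective f hinj
  have e9 : Nat.card (Fin 3 × Fin 3) = 9 := by simp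
  omega

end Fermat.Agent.S56.KS
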