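import Mathlib

/-!
# S56 / KS / Alg2  [S56/KS-ALG2]  (Mathlib only, pure field algebra, ~200 lines)

`B` a finite additive subgroup of a field `k` (`2 ≠ 0`) with at least 7 elements; `x y z : k → k` the coordinates of a cocycle on the unipotent group `u(B)`.

PROOF. (1) symmetry of `hy` in `(b, b')`: `b * z b' = b' * z b`.  Fix `b₀ ∈ B`, `b₀ ≠ 0`; `ζ := z b₀ / b₀`: `z b = ζ b` on `B`.
(2) symmetry of `hx`: `2 (b' y b - b y b') = ζ b b' (b - b')`.  So `y b = η b + ζ b² / 2` on `B`, `η := y b₀ / b₀ - ζ b₀ / 2`.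
(3) call `b ∈ B` GOOD if `(t + b c)² ≠ 4`; at most two elements are bad (`b = (± 2 - t) / c`).  For `b, b', b + b'` good, `E (b + b') - E b - E b'` (`E` = lhs of `hE`), using `hx`, (1), (2):
     `ζ b b' (δ + 2 d + c (b + b') / 2) - ν = 0`.
  Fix `b ≠ 0` good (avoid 3 values).  As a polynomial in `b'` this is `(ζ b c / 2) b'² + ζ b (δ + 2 d + c b / 2) b' - ν`; it vanishes at all `b' ∈ B` outside 4 values, so at 3 distinct points `s, t, w`
  (`Finset.two_lt_card` on `B` minus the 4 values).  `A s² + A' s + A'' = 0` at 3 distinct points gives `A = 0` (subtract, divide by the differences).  So `ζ = 0`; then also `ν = 0`.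
(4) now `z = 0`, `y b = η b`, `x₀ b := x b + η b²` is additive on `B` (`hx`), and `hE` gives `c x₀ b = - (δ η + μ) b` for good `b`.  `κ := - (δ η + μ) / c`.
  For a bad `b ∈ B` choose `b' ∈ B` with `b'` and `b - b'` good (avoid 4 values): `x₀ b = x₀ b' + x₀ (b - b') = κ b`.
-/

set_option autoImplicit false

namespace Fermat.Agent.S56.KS

theorem alg2_avoid {k : Type*} (B : Set k) [Finite B] (S : Finset k)
    (hS : S.card < Nat.card B) : ∃ b ∈ B, b ∉ S := by
  by_contra h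
  push Not at h
  have h1 : B ⊆ (S : Set k) := fun b hb => h b hb
  have h2 : B.ncard ≤ (S : Set k).ncard := Set.ncard_le_ncard h1 S.finite_toSet
  rw [Set.ncard_coe_finset] at h2
  have h3 : B.ncard = Nat.card B := rfl
  omega

theorem alg2_quad {k : Type*} [Field k] {A A' A'' s u w : k} (hsu : s ≠ u) (hsw : s ≠ w)
    (huw : u ≠ w) (hs : A * s ^ 2 + A' * s + A'' = 0) (hu : A * u ^ 2 + A' * u + A'' = 0)
    (hw : A * w ^ 2 + A' * w + A'' = 0) : A = 0 ∧ A'' = 0 := by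
  have h1 : A * (s + u) + A' = 0 := by
    have : (s - u) * (A * (s + u) + A') = 0 := by linear_combination hs - hu
    exact (mul_eq_zero.1 this).resolve_left (sub_ne_zero.2 hsu)
  have h2 : A * (s + w) + A' = 0 := by
    have : (s - w) * (A * (s + w) + A') = 0 := by linear_combination hs - hw
    exact (mul_eq_zero.1 this).resolve_left (sub_ne_zero.2 hsw)
  have h3 : A = 0 := by
    have : (u - w) * A = 0 := by linear_combination h1 - h2
    exact (mul_eq_zero.1 this).resolve_left (sub_ne_zero.2 huw)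
  subst h3
  have h4 : A' = 0 := by linear_combination h1
  subst h4
  exact ⟨rfl, by linear_combination hs⟩

theorem alg_two {k : Type*} [Field k] (h2 : (2 : k) ≠ 0) (B : AddSubgroup k) [Finite B]
    (hB : 7 ≤ Nat.card B) (x y z : k → k)
    (hz : ∀ b ∈ B, ∀ b' ∈ B, z (b + b') = z b + z b')
    (hy : ∀ b ∈ B, ∀ b' ∈ B, y (b + b') = y b + y b' + b * z b')
    (hx : ∀ b ∈ B, ∀ b' ∈ B, x (b + b') = x b + x b' - 2 * b * y b' - b ^ 2 * z b')
    (c t δ e d μ ν : k) (hc : c ≠ 0)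
    (hE : ∀ b ∈ B, (t + b * c) ^ 2 ≠ 4 →
      (δ + b * c) * y b + (e + b * d) * z b + c * x b + μ * b + ν = 0) :
    ∃ η κ : k, ∀ b ∈ B, z b = 0 ∧ y b = η * b ∧ x b = κ * b - η * b ^ 2 := by
  classical
  have avoid : ∀ S : Finset k, S.card < 7 → ∃ b ∈ B, b ∉ S := fun S hS =>
    alg2_avoid (B : Set k) S (lt_of_lt_of_le hS hB)
  obtain ⟨β₁, hβ₁⟩ : ∃ β₁, β₁ = (2 - t) / c := ⟨_, rfl⟩
  obtain ⟨β₂, hβ₂⟩ : ∃ β₂, β₂ = (-2 - t) / c := ⟨_, rfl⟩
  have good : ∀ b, b ≠ β₁ → b ≠ β₂ → (t + b * c) ^ 2 ≠ 4 := by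
    intro b h1 h2' h
    have h3 : (t + b * c - 2) * (t + b * c + 2) = 0 := by linear_combination h
    rcases mul_eq_zero.1 h3 with h4 | h4
    · apply h1
      rw [hβ₁, eq_div_iff hc]
      linear_combination h4
    · apply h2'
      rw [hβ₂, eq_div_iff hc]
      linear_combination h4
  obtain ⟨b₀, hb₀, hb₀0⟩ := avoid {0} (by simp)
  rw [Finset.mem_singleton] at hb₀0
  -- (1)
  have hzs : ∀ b ∈ B, ∀ b' ∈ B, b * z b' = b' * z b := by
    intro b hb b' hb'
    have h1 := hy b hb b' hb'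
    have h2' := hy b' hb' b hb
    rw [add_comm b' b] at h2'
    linear_combination h2' - h1
  obtain ⟨ζ, hζ⟩ : ∃ ζ, ζ = z b₀ / (2 * b₀) := ⟨_, rfl⟩
  have hζ' : 2 * b₀ * ζ = z b₀ := by
    rw [hζ]
    field_simp
  have hzζ : ∀ b ∈ B, z b = 2 * ζ * b := by
    intro b hb
    have h1 := hzs b₀ hb₀ b hb
    apply mul_left_cancel₀ hb₀0
    linear_combination h1 - b * hζ'
  -- (2)
  obtain ⟨η, hη⟩ : ∃ η, η = y b₀ / b₀ - ζ * b₀ := ⟨_, rfl⟩
  have hη' : b₀ * η = y b₀ - ζ * b₀ ^ 2 := by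
    rw [hη]
    field_simp
  have hyη : ∀ b ∈ B, y b = η * b + ζ * b ^ 2 := by
    intro b hb
    have h1 := hx b hb b₀ hb₀
    have h2' := hx b₀ hb₀ b hb
    rw [add_comm b₀ b] at h2'
    rw [hzζ b hb] at h2'
    rw [hzζ b₀ hb₀] at h1
    apply mul_left_cancel₀ (mul_ne_zero h2 hb₀0)
    linear_combination h2' - h1 - 2 * b * hη'
  -- (3)
  have hEE : ∀ b ∈ B, ∀ b' ∈ B, (t + b * c) ^ 2 ≠ 4 → (t + b' * c) ^ 2 ≠ 4 →
      (t + (b + b') * c) ^ 2 ≠ 4 →
      (ζ * b * c) * b' ^ 2 + (ζ * b * (2 * δ + 4 * d + c * b)) * b' + (-ν) = 0 := by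
    intro b hb b' hb' g1 g2 g3
    have e1 := hE b hb g1
    have e2 := hE b' hb' g2
    have e3 := hE (b + b') (B.add_mem hb hb') g3
    rw [hx b hb b' hb', hyη _ (B.add_mem hb hb'), hzζ _ (B.add_mem hb hb'), hyη b' hb',
      hzζ b' hb'] at e3
    rw [hyη b hb, hzζ b hb] at e1
    rw [hyη b' hb', hzζ b' hb'] at e2
    linear_combination e3 - e1 - e2
  obtain ⟨b, hb, hbS⟩ := avoid {0, β₁, β₂} (lt_of_le_of_lt Finset.card_le_three (by norm_num))
  simp only [Finset.mem_insert, Finset.mem_singleton, not_or] at hbS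
  obtain ⟨hb0, hb1, hb2⟩ := hbS
  have hpt : ∀ b' ∈ B, b' ∉ ({β₁, β₂, β₁ - b, β₂ - b} : Finset k) →
      (ζ * b * c) * b' ^ 2 + (ζ * b * (2 * δ + 4 * d + c * b)) * b' + (-ν) = 0 := by
    intro b' hb' hS
    simp only [Finset.mem_insert, Finset.mem_singleton, not_or] at hS
    obtain ⟨k1, k2, k3, k4⟩ := hS
    refine hEE b hb b' hb' (good b hb1 hb2) (good b' k1 k2) (good _ ?_ ?_)
    · intro h
      apply k3
      linear_combination h
    · intro h
      apply k4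
      linear_combination h
  obtain ⟨s, hs, hsS⟩ := avoid {β₁, β₂, β₁ - b, β₂ - b}
    (lt_of_le_of_lt Finset.card_le_four (by norm_num))
  obtain ⟨u, hu, huS⟩ := avoid {s, β₁, β₂, β₁ - b, β₂ - b}
    (lt_of_le_of_lt Finset.card_le_five (by norm_num))
  obtain ⟨w, hw, hwS⟩ := avoid {s, u, β₁, β₂, β₁ - b, β₂ - b}
    (lt_of_le_of_lt Finset.card_le_six (by norm_num))
  rw [Finset.mem_insert, not_or] at huS
  rw [Finset.mem_insert, not_or, Finset.mem_insert, not_or] at hwS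
  obtain ⟨hA, hν⟩ := alg2_quad (Ne.symm huS.1) (Ne.symm hwS.1) (Ne.symm hwS.2.1)
    (hpt s hs hsS) (hpt u hu huS.2) (hpt w hw hwS.2.2)
  have hζ0 : ζ = 0 := by
    rcases mul_eq_zero.1 hA with h | h
    · exact (mul_eq_zero.1 h).resolve_right hb0
    · exact absurd h hc
  have hν0 : ν = 0 := by linear_combination -hν
  subst hζ0
  subst hν0
  -- (4)
  have hz0 : ∀ b ∈ B, z b = 0 := fun b hb => by rw [hzζ b hb]; ring
  have hy0 : ∀ b ∈ B, y b = η * b := fun b hb => by rw [hyη b hb]; ring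
  obtain ⟨κ, hκ⟩ : ∃ κ, κ = -(δ * η + μ) / c := ⟨_, rfl⟩
  have hκ' : c * κ = -(δ * η + μ) := by
    rw [hκ]
    field_simp
  have hgood : ∀ b ∈ B, (t + b * c) ^ 2 ≠ 4 → x b = κ * b - η * b ^ 2 := by
    intro b hb g
    have e1 := hE b hb g
    rw [hy0 b hb, hz0 b hb] at e1
    apply mul_left_cancel₀ hc
    linear_combination e1 - b * hκ'
  refine ⟨η, κ, fun a ha => ⟨hz0 a ha, hy0 a ha, ?_⟩⟩
  obtain ⟨b', hb', hS⟩ := avoid {β₁, β₂, a - β₁, a - β₂}
    (lt_of_le_of_lt Finset.card_le_four (by norm_num))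
  simp only [Finset.mem_insert, Finset.mem_singleton, not_or] at hS
  obtain ⟨k1, k2, k3, k4⟩ := hS
  have g1 := hgood b' hb' (good b' k1 k2)
  have g2 := hgood (a - b') (B.sub_mem ha hb') (good _ (fun h => k3 (by linear_combination -h))
    (fun h => k4 (by linear_combination -h)))
  have h3 := hx b' hb' (a - b') (B.sub_mem ha hb')
  rw [add_sub_cancel, g1, g2, hy0 _ (B.sub_mem ha hb'), hz0 _ (B.sub_mem ha hb')] at h3
  linear_combination h3

end Fermat.Agent.S56.KS
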