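import Mathlib

/-!
# S56 / KS / Avg  [S56/KS-AVG]  (Mathlib only, ~80 lines)

A cocycle vanishing on a subgroup `P` of finite index `n`, `n` invertible on `A`, is a coboundary.

PROOF. `ψ (g h) = ψ g` for `h ∈ P` (`ψ (g h) = ψ g + ρ g (ψ h)`), so `ψ` is constant on left cosets `g P`.
`S := ∑ c : Γ ⧸ P, ψ c.out`.  For `g : Γ`: `∑ c, ψ (g * c.out) = ∑ c, ψ ((g • c).out) = S` (reindex by the bijection `c ↦ g • c`;
`g * c.out` and `(g • c).out` lie in the same left coset), and `∑ c, ψ (g * c.out) = n • ψ g + ρ g S`.  So `n • ψ g = S - ρ g S`.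
Take `m` with `n • m = - S`: `n • (ψ g - (ρ g m - m)) = 0`, conclude by `htf`.
-/

set_option autoImplicit false

namespace Fermat.Agent.S56.KS

theorem avg {Γ : Type*} [Group Γ] {A : Type*} [AddCommGroup A] (ρ : Γ →* AddMonoid.End A)
    (P : Subgroup Γ) [P.FiniteIndex] (hdiv : ∀ a : A, ∃ b, P.index • b = a)
    (htf : ∀ a : A, P.index • a = 0 → a = 0) (ψ : Γ → A)
    (hψ : ∀ g h, ψ (g * h) = ψ g + ρ g (ψ h)) (hP : ∀ h ∈ P, ψ h = 0) :
    ∃ m, ∀ g, ψ g = ρ g m - m := by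
  classical
  have : Fintype (Γ ⧸ P) := Fintype.ofFinite _
  have hcos : ∀ g g' : Γ, (g : Γ ⧸ P) = (g' : Γ ⧸ P) → ψ g = ψ g' := by
    intro g g' h
    have h1 : g⁻¹ * g' ∈ P := QuotientGroup.eq.1 h
    have h2 : g' = g * (g⁻¹ * g') := by group
    rw [h2, hψ, hP _ h1, map_zero, add_zero]
  set S : A := ∑ c : Γ ⧸ P, ψ c.out with hS
  have h1 : ∀ g : Γ, ∑ c : Γ ⧸ P, ψ (g * c.out) = S := by
    intro g
    rw [hS]
    refine Fintype.sum_equiv (MulAction.toPerm g) _ _ (fun c => ?_)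
    apply hcos
    rw [QuotientGroup.out_eq']
    show ((g * c.out : Γ) : Γ ⧸ P) = g • c
    conv_rhs => rw [← QuotientGroup.out_eq' c]
    rfl
  have h2 : ∀ g : Γ, ∑ c : Γ ⧸ P, ψ (g * c.out) = P.index • ψ g + ρ g S := by
    intro g
    simp only [hψ]
    rw [Finset.sum_add_distrib, Finset.sum_const, Finset.card_univ, hS, map_sum, Subgroup.index,
      Nat.card_eq_fintype_card]
  obtain ⟨m, hm⟩ := hdiv (-S)
  refine ⟨m, fun g => ?_⟩
  have h3 : P.index • ψ g = S - ρ g S := by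
    have := (h2 g).symm.trans (h1 g)
    rw [eq_sub_iff_add_eq]
    exact this
  have h4 : P.index • (ψ g - (ρ g m - m)) = 0 := by
    rw [smul_sub, smul_sub, ← map_nsmul, hm, h3, map_neg]
    abel
  exact sub_eq_zero.1 (htf _ h4)

end Fermat.Agent.S56.KS
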