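import Fermat.Agent.S56.KS.Defs

/-!
# S56 / KS / Col  [S56/KS-COL]  (Mathlib only, ~50 lines)

The image of a non-zero singular 2x2 matrix is a line.
PROOF. `M = !![a, b; c, d]`, `a d = b c`.  If the first column is non-zero take `u₀ = e₀` (second column `= (b/a)` resp. `(d/c)` times the first), otherwise `u₀ = e₁`.
-/

set_option autoImplicit false

namespace Fermat.Agent.S56.KS

open Matrix Polynomial

theorem mulVec2 {k : Type*} [Field k] (M : Mk k) (u : Fin 2 → k) :
    M.mulVec u = ![M 0 0 * u 0 + M 0 1 * u 1, M 1 0 * u 0 + M 1 1 * u 1] := by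
  funext i
  fin_cases i <;> simp [Matrix.mulVec, dotProduct, Fin.sum_univ_two]

theorem col {k : Type*} [Field k] (M : Mk k) (hdet : M.det = 0) (hM : M ≠ 0) :
    ∃ u₀ : Fin 2 → k, M.mulVec u₀ ≠ 0 ∧ ∀ u, ∃ t : k, M.mulVec u = t • M.mulVec u₀ := by
  rw [Matrix.det_fin_two] at hdet
  by_cases ha : M 0 0 = 0
  · by_cases hc : M 1 0 = 0
    · refine ⟨![0, 1], ?_, fun u => ⟨u 1, ?_⟩⟩
      · intro h
        apply hM
        rw [mulVec2] at h
        have h0 := congrFun h 0
        have h1 := congrFun h 1
        simp at h0 h1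
        ext i j
        fin_cases i <;> fin_cases j <;> simp [ha, hc, h0, h1]
      · rw [mulVec2, mulVec2]
        funext i
        fin_cases i <;> simp [ha, hc, mul_comm]
    · have hb : M 0 1 = 0 := by
        rw [ha, zero_mul, zero_sub, neg_eq_zero] at hdet
        exact (mul_eq_zero.mp hdet).resolve_right hc
      refine ⟨![1, 0], ?_, fun u => ⟨u 0 + M 1 1 / M 1 0 * u 1, ?_⟩⟩
      · intro h
        rw [mulVec2] at h
        have h1 := congrFun h 1
        simp at h1
        exact hc h1
      · rw [mulVec2, mulVec2]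
        funext i
        fin_cases i
        · simp [ha, hb]
        · simp
          field_simp
  · refine ⟨![1, 0], ?_, fun u => ⟨u 0 + M 0 1 / M 0 0 * u 1, ?_⟩⟩
    · intro h
      rw [mulVec2] at h
      have h0 := congrFun h 0
      simp at h0
      exact ha h0
    · rw [mulVec2, mulVec2]
      funext i
      fin_cases i
      · simp
        field_simp
      · simp
        field_simp
        linear_combination (u 1) * hdet

theorem not_noLine {k : Type*} [Field k] {Γ : Type*} [Group Γ] (r : Γ →* GL (Fin 2) k)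
    (M : Mk k) (hdet : M.det = 0) (hM : M ≠ 0) (G' : Subgroup Γ)
    (h : ∀ g ∈ G', ∃ c : k, (r g : Mk k) * M = c • (M * (r g : Mk k))) : ¬ NoLine r G' := by
  obtain ⟨u₀, hw, hu⟩ := col M hdet hM
  intro hN
  obtain ⟨g, hg, hc⟩ := hN _ hw
  obtain ⟨c, hcM⟩ := h g hg
  obtain ⟨t, ht⟩ := hu ((r g : Mk k).mulVec u₀)
  apply hc (c * t)
  rw [Matrix.mulVec_mulVec, hcM, Matrix.smul_mulVec, ← Matrix.mulVec_mulVec, ht, smul_smul]

theorem sq_of_trace_zero {k : Type*} [Field k] (A : Mk k) (hA : A.trace = 0) :
    A * A = (-A.det) • (1 : Mk k) := by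
  rw [Matrix.trace_fin_two] at hA
  have h11 : A 1 1 = -A 0 0 := by linear_combination hA
  ext i j
  fin_cases i <;> fin_cases j <;>
    simp [Matrix.mul_apply, Fin.sum_univ_two, Matrix.det_fin_two, h11] <;> ring

theorem det_sub_smul_one {k : Type*} [Field k] (g : Mk k) (α : k) :
    (g - α • (1 : Mk k)).det = α ^ 2 - g.trace * α + g.det := by
  rw [Matrix.det_fin_two, Matrix.det_fin_two, Matrix.trace_fin_two]
  simp
  ring

theorem det_sub_root {k : Type*} [Field k] (g : Mk k) {α β : k}
    (h : g.charpoly = (X - C α) * (X - C β)) : (g - α • (1 : Mk k)).det = 0 := by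
  rw [det_sub_smul_one]
  rw [Matrix.charpoly_fin_two] at h
  have := congrArg (Polynomial.eval α) h
  simp at this
  linear_combination this

end Fermat.Agent.S56.KS
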