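import Fermat.Agent.S56.KS.Defs

/-!
# S56 / KS / EZ  [S56/KS-EZ]  (Mathlib only, explicit 2x2 computations, ~180 lines)

`relE`.  PROOF. `h := g * γ`, `r h = uU b * r γ`: `det = 1`, `tr = tr γ + b γ₁₀`.  `hSS h`: `0 = tr (r h * ψ h)`, `ψ h = ψ g + tw (uU b) (ψ γ)`.
`tr (u γ ψ g) = (γ₀₀ - γ₁₁ + b γ₁₀) y + (γ₀₁ + b γ₁₁) z + γ₁₀ x`;  `tr (u γ u ψγ adj u) = tr (adj u u γ u ψγ) = tr (γ u ψγ) = μ b + ν` with, for `ψ γ = !![y', x'; z', -y']` (trace zero),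
`μ := γ₀₀ z' - γ₁₀ y'`, `ν := γ₀₀ y' + γ₀₁ z' + γ₁₀ x' - γ₁₁ y'`.

`relZ`.  PROOF. `g n = n g'`, so `uU b * r n = r n * uU b'`; with `r n = !![a, c; e, d]`: entries give `b e = 0` (entry `0 0`: `a + b e = a`), so `e = 0`, and entry `0 1`: `c + b d = a b' + c`.
`ψ (g n) = ψ g + tw (uU b) (ψ n)`, `ψ (n g') = ψ n + tw (r n) (ψ g')`; entry `1 0`: `(tw (uU b) X) 1 0 = X 1 0`, `(tw !![a, c; 0, d] X) 1 0 = d² X 1 0`.
-/

set_option autoImplicit false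

namespace Fermat.Agent.S56.KS

theorem relE {k : Type*} [Field k] {Γ : Type*} [Group Γ]
    (r : Γ →* GL (Fin 2) k) (ψ : Γ → Mk k) (hψ : IsTC r ψ) (γ : Γ) (hγ : (r γ : Mk k).det = 1)
    (hSS : ∀ g, (r g : Mk k).det = 1 → (r g : Mk k).trace ^ 2 ≠ 4 →
      ((r g : Mk k) * ψ g).trace = 0) :
    ∃ μ ν : k, ∀ (g : Γ) (b x y z : k), r g = uU b → ψ g = !![y, x; z, -y] →
      ((r γ : Mk k).trace + b * (r γ : Mk k) 1 0) ^ 2 ≠ 4 →
      ((r γ : Mk k) 0 0 - (r γ : Mk k) 1 1 + b * (r γ : Mk k) 1 0) * y +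
        ((r γ : Mk k) 0 1 + b * (r γ : Mk k) 1 1) * z + (r γ : Mk k) 1 0 * x + μ * b + ν = 0 := by
  refine ⟨(r γ : Mk k) 0 0 * (ψ γ) 1 0 - (r γ : Mk k) 1 0 * (ψ γ) 0 0,
    (r γ : Mk k) 0 0 * (ψ γ) 0 0 + (r γ : Mk k) 0 1 * (ψ γ) 1 0 + (r γ : Mk k) 1 0 * (ψ γ) 0 1 -
      (r γ : Mk k) 1 1 * (ψ γ) 0 0, ?_⟩
  intro g b x y z hg hψg hne
  have hrh : (r (g * γ) : Mk k) = !![1, b; 0, 1] * (r γ : Mk k) := by
    rw [map_mul, Units.val_mul, hg, coe_uU]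
  have hdet : (r (g * γ) : Mk k).det = 1 := by
    rw [hrh, Matrix.det_mul, hγ]
    simp [Matrix.det_fin_two]
  have htr : (r (g * γ) : Mk k).trace = (r γ : Mk k).trace + b * (r γ : Mk k) 1 0 := by
    rw [hrh, Matrix.trace_fin_two, Matrix.trace_fin_two]
    simp only [Matrix.mul_apply, Fin.sum_univ_two, Matrix.of_apply, Matrix.cons_val',
      Matrix.cons_val_zero, Matrix.cons_val_one, Matrix.cons_val_fin_one]
    ring
  have h0 := hSS (g * γ) hdet (by rw [htr]; exact hne)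
  have htrγ := hψ.tr γ
  rw [Matrix.trace_fin_two] at htrγ
  rw [hrh, hψ.mul, hg, hψg, tw, coe_uU, Matrix.adjugate_fin_two_of, Matrix.trace_fin_two] at h0
  simp only [Matrix.mul_apply, Matrix.add_apply, Fin.sum_univ_two, Matrix.of_apply,
    Matrix.cons_val', Matrix.cons_val_zero, Matrix.cons_val_one, Matrix.cons_val_fin_one] at h0
  linear_combination h0 - ((r γ : Mk k) 1 0 * b + (r γ : Mk k) 1 1) * htrγ

theorem relZ {k : Type*} [Field k] {Γ : Type*} [Group Γ]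
    (r : Γ →* GL (Fin 2) k) (ψ : Γ → Mk k) (hψ : IsTC r ψ) (n g g' : Γ) (b b' : k) (hb : b ≠ 0)
    (hg : r g = uU b) (hg' : r g' = uU b') (hconj : g' = n⁻¹ * g * n) :
    (r n : Mk k) 1 0 = 0 ∧ (r n : Mk k) 0 0 * b' = b * (r n : Mk k) 1 1 ∧
      (ψ g) 1 0 = ((r n : Mk k) 1 1) ^ 2 * (ψ g') 1 0 := by
  have hcomm : g * n = n * g' := by
    rw [hconj]
    group
  have hmat : (!![1, b; 0, 1] : Mk k) * (r n : Mk k) = (r n : Mk k) * !![1, b'; 0, 1] := by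
    rw [← coe_uU, ← coe_uU, ← hg, ← hg', ← Units.val_mul, ← Units.val_mul, ← map_mul, ← map_mul,
      hcomm]
  have e00 := congrFun (congrFun hmat 0) 0
  have e01 := congrFun (congrFun hmat 0) 1
  simp only [Matrix.mul_apply, Fin.sum_univ_two, Matrix.of_apply, Matrix.cons_val',
    Matrix.cons_val_zero, Matrix.cons_val_one, Matrix.cons_val_fin_one] at e00 e01
  have h10 : (r n : Mk k) 1 0 = 0 := by
    have : b * (r n : Mk k) 1 0 = 0 := by linear_combination e00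
    exact (mul_eq_zero.1 this).resolve_left hb
  refine ⟨h10, by linear_combination -e01, ?_⟩
  have h1 := hψ.mul g n
  have h2 := hψ.mul n g'
  rw [hcomm, h2] at h1
  have e := congrFun (congrFun h1 1) 0
  rw [hg] at e
  simp only [tw, coe_uU, Matrix.adjugate_fin_two_of, Matrix.adjugate_fin_two, Matrix.add_apply,
    Matrix.mul_apply, Fin.sum_univ_two, Matrix.of_apply, Matrix.cons_val', Matrix.cons_val_zero,
    Matrix.cons_val_one, Matrix.cons_val_fin_one, h10] at e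
  linear_combination -e

end Fermat.Agent.S56.KS
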