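import Fermat.Agent.S56.KS.Defs

/-!
# S56 / KS / XYZ  [S56/KS-XYZ]  (Mathlib only, ~150 lines)

Coordinates of a twisted cocycle on a subgroup `P` of upper unipotent matrices.

PROOF. `B := {b | ∃ g ∈ P, r g = uU b}` (`uU b * uU b' = uU (b + b')`, `(uU b)⁻¹ = uU (-b)`, `uU 0 = 1`).  `x b := if h : ∃ g ∈ P, r g = uU b then ψ h.choose 0 1 else 0`, `y` : entry `0 0`, `z` : entry `1 0`.
`r` injective: `h.choose = g` whenever `g ∈ P`, `r g = uU b`.  `tr (ψ g) = 0` gives entry `1 1 = - y b`.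
`tw (uU b) !![y, x; z, -y] = !![y + b z, x - 2 b y - b² z; z, -(y + b z)]` (`adjugate !![1, b; 0, 1] = !![1, -b; 0, 1]`, `Matrix.adjugate_fin_two`); the three relations are the entries of `hψ.mul g g'`.
-/

set_option autoImplicit false

namespace Fermat.Agent.S56.KS

theorem xyzAux_zero {k : Type*} [Field k] : uU (0 : k) = 1 :=
  Units.ext (by rw [coe_uU]; exact Matrix.one_fin_two.symm)

theorem xyzAux_add {k : Type*} [Field k] (b b' : k) : uU b * uU b' = uU (b + b') := by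
  apply Units.ext
  rw [Units.val_mul, coe_uU, coe_uU, coe_uU, Matrix.mul_fin_two]
  congr 1
  simp [add_comm]

theorem xyzAux_neg {k : Type*} [Field k] (b : k) : (uU b)⁻¹ = uU (-b) :=
  inv_eq_of_mul_eq_one_right (by rw [xyzAux_add, add_neg_cancel, xyzAux_zero])

theorem xyzAux_tw {k : Type*} [Field k] (b y x z : k) :
    tw (uU b) !![y, x; z, -y] = !![y + b * z, x - 2 * b * y - b ^ 2 * z; z, -(y + b * z)] := by
  simp only [tw, coe_uU, Matrix.adjugate_fin_two_of, Matrix.mul_fin_two]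
  ext i j
  fin_cases i <;> fin_cases j <;> simp <;> ring

theorem xyz {k : Type*} [Field k] {Γ : Type*} [Group Γ]
    (r : Γ →* GL (Fin 2) k) (hinj : Function.Injective r) (ψ : Γ → Mk k) (hψ : IsTC r ψ)
    (P : Subgroup Γ) (hP : ∀ g ∈ P, ∃ b, r g = uU b) :
    ∃ (B : AddSubgroup k) (x y z : k → k),
      (∀ g ∈ P, ∀ b, r g = uU b → b ∈ B ∧ ψ g = !![y b, x b; z b, - y b]) ∧
      (∀ b ∈ B, ∃ g ∈ P, r g = uU b) ∧
      (∀ b ∈ B, ∀ b' ∈ B, z (b + b') = z b + z b') ∧
      (∀ b ∈ B, ∀ b' ∈ B, y (b + b') = y b + y b' + b * z b') ∧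
      (∀ b ∈ B, ∀ b' ∈ B, x (b + b') = x b + x b' - 2 * b * y b' - b ^ 2 * z b') := by
  classical
  let B : AddSubgroup k :=
    { carrier := {b | ∃ g ∈ P, r g = uU b}
      zero_mem' := ⟨1, P.one_mem, by rw [map_one, xyzAux_zero]⟩
      add_mem' := by
        rintro b b' ⟨g, hg, e⟩ ⟨g', hg', e'⟩
        exact ⟨g * g', P.mul_mem hg hg', by rw [map_mul, e, e', xyzAux_add]⟩
      neg_mem' := by
        rintro b ⟨g, hg, e⟩
        exact ⟨g⁻¹, P.inv_mem hg, by rw [map_inv, e, xyzAux_neg]⟩ }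
  let sel : k → Mk k := fun b => if h : ∃ g ∈ P, r g = uU b then ψ h.choose else 0
  have hsel : ∀ g ∈ P, ∀ b, r g = uU b → sel b = ψ g := by
    intro g hg b e
    have h : ∃ g ∈ P, r g = uU b := ⟨g, hg, e⟩
    have h1 : h.choose = g := hinj (h.choose_spec.2.trans e.symm)
    simp only [sel]
    rw [dif_pos h, h1]
  have hform : ∀ g ∈ P, ∀ b, r g = uU b →
      ψ g = !![sel b 0 0, sel b 0 1; sel b 1 0, - sel b 0 0] := by
    intro g hg b e
    rw [hsel g hg b e]
    have ht := hψ.tr g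
    rw [Matrix.trace_fin_two] at ht
    ext i j
    fin_cases i <;> fin_cases j
    · rfl
    · rfl
    · rfl
    · show ψ g 1 1 = - ψ g 0 0
      linear_combination ht
  have hrel : ∀ b ∈ B, ∀ b' ∈ B,
      !![sel (b + b') 0 0, sel (b + b') 0 1; sel (b + b') 1 0, - sel (b + b') 0 0] =
        !![sel b 0 0, sel b 0 1; sel b 1 0, - sel b 0 0] +
        !![sel b' 0 0 + b * sel b' 1 0, sel b' 0 1 - 2 * b * sel b' 0 0 - b ^ 2 * sel b' 1 0;
          sel b' 1 0, -(sel b' 0 0 + b * sel b' 1 0)] := by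
    rintro b ⟨g, hg, e⟩ b' ⟨g', hg', e'⟩
    have h1 := hψ.mul g g'
    rw [hform (g * g') (P.mul_mem hg hg') (b + b') (by rw [map_mul, e, e', xyzAux_add]),
      hform g hg b e, hform g' hg' b' e', e, xyzAux_tw] at h1
    exact h1
  refine ⟨B, fun b => sel b 0 1, fun b => sel b 0 0, fun b => sel b 1 0, ?_, ?_, ?_, ?_, ?_⟩
  · exact fun g hg b e => ⟨⟨g, hg, e⟩, hform g hg b e⟩
  · exact fun b hb => hb
  · intro b hb b' hb'
    have := congrFun (congrFun (hrel b hb b' hb') 1) 0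
    simpa using this
  · intro b hb b' hb'
    have := congrFun (congrFun (hrel b hb b' hb') 0) 0
    simp only [Matrix.add_apply, Matrix.of_apply, Matrix.cons_val', Matrix.cons_val_zero,
      Matrix.cons_val_fin_one] at this
    show sel (b + b') 0 0 = sel b 0 0 + sel b' 0 0 + b * sel b' 1 0
    rw [this]; ring
  · intro b hb b' hb'
    have := congrFun (congrFun (hrel b hb b' hb') 0) 1
    simp only [Matrix.add_apply, Matrix.of_apply, Matrix.cons_val', Matrix.cons_val_zero,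
      Matrix.cons_val_one, Matrix.cons_val_fin_one] at this
    show sel (b + b') 0 1 = sel b 0 1 + sel b' 0 1 - 2 * b * sel b' 0 0 - b ^ 2 * sel b' 1 0
    rw [this]; ring

end Fermat.Agent.S56.KS
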