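import Fermat.Agent.S56.KS.Tw
import Fermat.Agent.S56.KS.XYZ
import Fermat.Agent.S56.KS.EZ
import Fermat.Agent.S56.KS.Alg1
import Fermat.Agent.S56.KS.Alg2

/-!
# S56 / KS / Core : a twisted cocycle is a coboundary on the unipotent Sylow subgroup (helper9; assembly of XYZ, EZ, Alg1, Alg2)
-/

set_option autoImplicit false

namespace Fermat.Agent.S56.KS

open Matrix

theorem core {k : Type*} [Field k] [Finite k] {Γ : Type*} [Group Γ] (p : ℕ) [Fact p.Prime]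
    [CharP k p] (hp2 : p ≠ 2)
    (r : Γ →* GL (Fin 2) k) (hinj : Function.Injective r) (ψ : Γ → Mk k) (hψ : IsTC r ψ)
    (P : Subgroup Γ) (hP : ∀ g ∈ P, ∃ b, r g = uU b)
    (hSS : ∀ g, (r g : Mk k).det = 1 → (r g : Mk k).trace ^ 2 ≠ 4 →
      ((r g : Mk k) * ψ g).trace = 0)
    (γ : Γ) (hγ : (r γ : Mk k).det = 1) (hγ10 : (r γ : Mk k) 1 0 ≠ 0)
    (n₀ : Γ) (hn₀ : ∀ h, h ∈ P ↔ n₀⁻¹ * h * n₀ ∈ P)
    (hns : ∀ j : ℕ, (r n₀ : Mk k).det * (j : k) ^ 2 ≠ 1) :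
    ∃ m : Mk k, ∀ g ∈ P, ψ g = tw (r g) m - m := by
  have h2 : (2 : k) ≠ 0 := by
    intro h
    have h3 : ((2 : ℕ) : k) = 0 := by exact_mod_cast h
    rw [CharP.cast_eq_zero_iff k p] at h3
    exact hp2 ((Nat.prime_dvd_prime_iff_eq Fact.out Nat.prime_two).1 h3)
  obtain ⟨B, x, y, z, h1, h2', hz, hy, hx⟩ := xyz r hinj ψ hψ P hP
  have key : ∃ η κ : k, ∀ b ∈ B, z b = 0 ∧ y b = η * b ∧ x b = κ * b - η * b ^ 2 := by
    by_cases hcyc : ∃ b₀ ∈ B, ∀ b ∈ B, ∃ j : ℕ, b = (j : k) * b₀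
    · obtain ⟨b₀, hb₀, hcyc⟩ := hcyc
      refine alg_one B x y z hy hx ?_ b₀ hb₀ hcyc
      have hjB : ∀ j : ℕ, (j : k) * b₀ ∈ B := by
        intro j
        have := B.nsmul_mem hb₀ j
        rwa [nsmul_eq_mul] at this
      have hz0 : z 0 = 0 := by
        have := hz 0 B.zero_mem 0 B.zero_mem
        rw [add_zero] at this
        exact left_eq_add.mp this
      have hzj : ∀ j : ℕ, z ((j : k) * b₀) = (j : k) * z b₀ := by
        intro j
        induction j with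
        | zero => simp [hz0]
        | succ j ih =>
          have := hz _ (hjB j) b₀ hb₀
          rw [Nat.cast_succ, add_mul, one_mul, this, ih]
          ring
      have hzb0 : z b₀ = 0 := by
        by_cases hb0 : b₀ = 0
        · rw [hb0, hz0]
        by_contra hne
        obtain ⟨g₀, hg₀, hr₀⟩ := h2' b₀ hb₀
        have hg' : n₀⁻¹ * g₀ * n₀ ∈ P := (hn₀ g₀).1 hg₀
        obtain ⟨b', hb'⟩ := hP _ hg'
        obtain ⟨hb'B, hψ'⟩ := h1 _ hg' b' hb'
        obtain ⟨-, hψ₀⟩ := h1 _ hg₀ b₀ hr₀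
        obtain ⟨e10, eab, ez⟩ := relZ r ψ hψ n₀ g₀ _ b₀ b' hb0 hr₀ hb' rfl
        obtain ⟨j, hj⟩ := hcyc b' hb'B
        rw [hψ₀, hψ'] at ez
        simp only [Matrix.of_apply, Matrix.cons_val', Matrix.cons_val_zero, Matrix.cons_val_one,
          Matrix.cons_val_fin_one] at ez
        rw [hj, hzj] at ez
        rw [hj] at eab
        have e1 : (r n₀ : Mk k) 0 0 * (j : k) = (r n₀ : Mk k) 1 1 := by
          have : ((r n₀ : Mk k) 0 0 * (j : k)) * b₀ = (r n₀ : Mk k) 1 1 * b₀ := by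
            linear_combination eab
          exact mul_right_cancel₀ hb0 this
        have e2 : ((r n₀ : Mk k) 1 1) ^ 2 * (j : k) = 1 := by
          have : (((r n₀ : Mk k) 1 1) ^ 2 * (j : k)) * z b₀ = 1 * z b₀ := by
            linear_combination -ez
          exact mul_right_cancel₀ hne this
        refine hns j ?_
        rw [Matrix.det_fin_two, e10]
        linear_combination ((r n₀ : Mk k) 1 1 * (j : k)) * e1 + e2
      intro b hb
      obtain ⟨j, rfl⟩ := hcyc b hb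
      rw [hzj, hzb0, mul_zero]
    · have h7 := card_seven p hp2 B hcyc
      obtain ⟨μ, ν, hE⟩ := relE r ψ hψ γ hγ hSS
      refine alg_two h2 B h7 x y z hz hy hx ((r γ : Mk k) 1 0) ((r γ : Mk k).trace)
        ((r γ : Mk k) 0 0 - (r γ : Mk k) 1 1) ((r γ : Mk k) 0 1) ((r γ : Mk k) 1 1) μ ν hγ10 ?_
      intro b hb hne
      obtain ⟨g, hg, hgb⟩ := h2' b hb
      exact hE g b (x b) (y b) (z b) hgb (h1 g hg b hgb).2 hne
  obtain ⟨η, κ, hk⟩ := key
  refine ⟨!![-κ / 2, 0; η, κ / 2], fun g hg => ?_⟩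
  obtain ⟨b, hb⟩ := hP g hg
  obtain ⟨hbB, hψg⟩ := h1 g hg b hb
  obtain ⟨e1, e2, e3⟩ := hk b hbB
  rw [hψg, hb, e1, e2, e3, tw, coe_uU, Matrix.adjugate_fin_two_of]
  ext i j
  fin_cases i <;> fin_cases j <;>
    simp [Matrix.mul_apply, Fin.sum_univ_two] <;> field_simp <;> ring

end Fermat.Agent.S56.KS
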