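import Mathlib

/-!
# S56 / KS / Defs : twisted cocycles with values in 2x2 matrices      (owner helper9; Mathlib only)

`k` a field, `r : Γ →* GL₂(k)`.  Twisted adjoint action `tw g X = g X adj(g) = det(g) g X g⁻¹`.
`IsTC r ψ` : `ψ : Γ → M₂(k)` has trace zero values and `ψ (g h) = ψ g + tw (r g) (ψ h)`.
`IsTB r ψ` : `ψ g = tw (r g) m - m` for some trace zero `m`.
-/

set_option autoImplicit false

noncomputable section

namespace Fermat.Agent.S56.KS

open Matrix Polynomial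

/-- 2x2 matrices -/
abbrev Mk (k : Type*) : Type _ := Matrix (Fin 2) (Fin 2) k

variable {k : Type*} [Field k] {Γ : Type*} [Group Γ]

/-- twisted action `g X adj(g) = det(g) g X g⁻¹` -/
def tw (g : GL (Fin 2) k) (X : Mk k) : Mk k := (g : Mk k) * X * (g : Mk k).adjugate

/-- twisted cocycles -/
structure IsTC (r : Γ →* GL (Fin 2) k) (ψ : Γ → Mk k) : Prop where
  tr : ∀ g, (ψ g).trace = 0
  mul : ∀ g h, ψ (g * h) = ψ g + tw (r g) (ψ h)

/-- twisted coboundaries -/
def IsTB (r : Γ →* GL (Fin 2) k) (ψ : Γ → Mk k) : Prop :=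
  ∃ m : Mk k, m.trace = 0 ∧ ∀ g, ψ g = tw (r g) m - m

/-- no line of `k²` is stable under `G'` -/
def NoLine (r : Γ →* GL (Fin 2) k) (G' : Subgroup Γ) : Prop :=
  ∀ v : Fin 2 → k, v ≠ 0 → ∃ g ∈ G', ∀ c : k, (r g : Mk k).mulVec v ≠ c • v

/-- no line of `k²` is stable under a subgroup of index `≤ 2` -/
def F12 (r : Γ →* GL (Fin 2) k) : Prop :=
  ∀ G' : Subgroup Γ, (∀ g h, g ∉ G' → h ∉ G' → g * h ∈ G') → NoLine r G'

/-- all characteristic polynomials split over `k` -/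
def Split (r : Γ →* GL (Fin 2) k) : Prop :=
  ∀ g, ∃ α β : k, (r g : Mk k).charpoly = (X - C α) * (X - C β)

/-- no line of trace zero matrices is stable under conjugation -/
def NoAdLine (r : Γ →* GL (Fin 2) k) : Prop :=
  ∀ A : Mk k, A.trace = 0 → A ≠ 0 → ∃ g, ∀ c : k, (r g : Mk k) * A ≠ c • (A * (r g : Mk k))

/-- upper unipotent matrices -/
def uU (b : k) : GL (Fin 2) k :=
  Matrix.GeneralLinearGroup.mkOfDetNeZero !![1, b; 0, 1] (by simp [Matrix.det_fin_two])

@[simp] theorem coe_uU (b : k) : ((uU b : GL (Fin 2) k) : Mk k) = !![1, b; 0, 1] := rfl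

/-- conjugation of a representation -/
def conjR (T : GL (Fin 2) k) (r : Γ →* GL (Fin 2) k) : Γ →* GL (Fin 2) k :=
  (MulAut.conj T).toMonoidHom.comp r

@[simp] theorem conjR_apply (T : GL (Fin 2) k) (r : Γ →* GL (Fin 2) k) (g : Γ) :
    conjR T r g = T * r g * T⁻¹ := rfl

end Fermat.Agent.S56.KS
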