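import Fermat.Agent.S56.Tan.Defs

/-!
# S56 / KS / DualA  [S56/KS-DUALA]  (finite field linear algebra, ~200 lines; only `Ad0 k = ↥(M0 k)` = trace zero matrices (an `AddSubgroup` of `M2 k`) from Tan/Defs)

`k` finite of characteristic `p ≠ 2`.  There is an additive `T : k →+ ZMod p`, non-degenerate, such that every additive `φ : Ad0 k →+ ZMod p` is `Y ↦ T (tr (X Y))` for a trace zero `X`.

PROOF. (1) `T`: any non-zero additive map, e.g. `Algebra.trace (ZMod p) k` (`ZMod.algebra k p`; non-zero: `Algebra.trace_surjective` for the separable extension) or a coordinate of a `ZMod p`-basis.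
  If `T c₀ ≠ 0` and `a ≠ 0` then `T ((c₀ / a) * a) ≠ 0`.
(2) `τ : Ad0 k →+ (Ad0 k →+ ZMod p)`, `τ X Y = T (tr (X Y))`, is injective: if `X = !![a, b; c, -a] ≠ 0`, test against `Y = t • !![1, 0; 0, -1]` (`tr = 2 a t`), `t • !![0, 0; 1, 0]` (`tr = b t`), `t • !![0, 1; 0, 0]` (`tr = c t`) and use (1).
(3) `Nat.card (Ad0 k →+ ZMod p) = Nat.card (Ad0 k)`: `Ad0 k` is a finite `ZMod p`-vector space (`AddCommGroup.zmodModule`), `(A →+ ZMod p) ≃ Module.Dual (ZMod p) A` (`AddMonoidHom.toZModLinearMap`),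
  `Subspace.dual_finrank_eq`, `Module.card_eq_pow_finrank`.  (look also at `Fermat/Agent/S55/E/Dual.lean`, it may contain this count.)  Injective + same finite cardinality ⟹ surjective (`Function.Injective.bijective_of_nat_card_le`).
-/

set_option autoImplicit false

open Fermat.Agent.S53

namespace Fermat.Agent.S56.KS

/-- every additive map `k → ZMod p` is `t ↦ T (a t)` -/
theorem exists_T1 {k : Type} [Field k] [Finite k] (p : ℕ) [Fact p.Prime] [CharP k p] :
    ∃ T : k →+ ZMod p, (∀ a : k, a ≠ 0 → ∃ c, T (c * a) ≠ 0) ∧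
      ∀ ψ : k →+ ZMod p, ∃ a : k, ∀ t, ψ t = T (a * t) := by
  letI : Algebra (ZMod p) k := ZMod.algebra k p
  haveI : Module.Finite (ZMod p) k := Module.Finite.of_finite
  obtain ⟨φ₀, hφ₀⟩ : ∃ φ : Module.Dual (ZMod p) k, φ 1 ≠ 0 := by
    by_contra h
    push Not at h
    exact one_ne_zero ((Module.forall_dual_apply_eq_zero_iff (ZMod p) (1 : k)).1 h)
  let L : k →ₗ[ZMod p] Module.Dual (ZMod p) k := (LinearMap.mul (ZMod p) k).compr₂ φ₀
  have hL : ∀ a t, L a t = φ₀ (a * t) := fun a t => rfl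
  have hinj : Function.Injective L := by
    rw [← LinearMap.ker_eq_bot, LinearMap.ker_eq_bot']
    intro a ha
    by_contra hne
    apply hφ₀
    have := congrArg (fun f : Module.Dual (ZMod p) k => f a⁻¹) ha
    simp only [hL, LinearMap.zero_apply] at this
    rwa [mul_inv_cancel₀ hne] at this
  have hsurj : Function.Surjective L :=
    (LinearMap.injective_iff_surjective_of_finrank_eq_finrank
      (Subspace.dual_finrank_eq (K := ZMod p) (V := k)).symm).1 hinj
  refine ⟨φ₀.toAddMonoidHom, fun a ha => ⟨a⁻¹, ?_⟩, fun ψ => ?_⟩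
  · show φ₀ (a⁻¹ * a) ≠ 0
    rwa [inv_mul_cancel₀ ha]
  · obtain ⟨a, ha⟩ := hsurj (ψ.toZModLinearMap p)
    refine ⟨a, fun t => ?_⟩
    have := congrArg (fun f : Module.Dual (ZMod p) k => f t) ha
    simp only [hL] at this
    exact this.symm

/-- the three coordinate embeddings -/
def emb1 (k : Type) [Field k] : k →+ Ad0 k where
  toFun t := ⟨!![t, 0; 0, -t], by rw [mem_M0, Matrix.trace_fin_two_of, add_neg_cancel]⟩
  map_zero' := by
    apply Subtype.ext
    ext i j
    fin_cases i <;> fin_cases j <;> simp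
  map_add' a b := by
    apply Subtype.ext
    ext i j
    fin_cases i <;> fin_cases j
    · simp
    · simp
    · simp
    · show -(a + b) = -a + -b
      ring

def emb2 (k : Type) [Field k] : k →+ Ad0 k where
  toFun t := ⟨!![0, t; 0, 0], by rw [mem_M0, Matrix.trace_fin_two_of, add_zero]⟩
  map_zero' := by
    apply Subtype.ext
    ext i j
    fin_cases i <;> fin_cases j <;> simp
  map_add' a b := by
    apply Subtype.ext
    ext i j
    fin_cases i <;> fin_cases j <;> simp

def emb3 (k : Type) [Field k] : k →+ Ad0 k where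
  toFun t := ⟨!![0, 0; t, 0], by rw [mem_M0, Matrix.trace_fin_two_of, add_zero]⟩
  map_zero' := by
    apply Subtype.ext
    ext i j
    fin_cases i <;> fin_cases j <;> simp
  map_add' a b := by
    apply Subtype.ext
    ext i j
    fin_cases i <;> fin_cases j <;> simp

theorem emb_decomp {k : Type} [Field k] (Y : Ad0 k) :
    Y = emb1 k ((Y : M2 k) 0 0) + emb2 k ((Y : M2 k) 0 1) + emb3 k ((Y : M2 k) 1 0) := by
  have h : (Y : M2 k).trace = 0 := Y.2
  rw [Matrix.trace_fin_two] at h
  apply Subtype.ext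
  ext i j
  fin_cases i <;> fin_cases j
  · simp [emb1, emb2, emb3]
  · simp [emb1, emb2, emb3]
  · simp [emb1, emb2, emb3]
  · simp [emb1, emb2, emb3]
    linear_combination h

theorem exists_T {k : Type} [Field k] [Finite k] (p : ℕ) [Fact p.Prime] [CharP k p] (hp2 : p ≠ 2) :
    ∃ T : k →+ ZMod p, (∀ a : k, a ≠ 0 → ∃ c, T (c * a) ≠ 0) ∧
      ∀ φ : Ad0 k →+ ZMod p, ∃ X : M2 k, X.trace = 0 ∧
        ∀ Y : Ad0 k, φ Y = T (Matrix.trace (X * (Y : M2 k))) := by
  have h2 : (2 : k) ≠ 0 := by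
    intro h
    have h3 : ((2 : ℕ) : k) = 0 := by exact_mod_cast h
    rw [CharP.cast_eq_zero_iff k p] at h3
    exact hp2 ((Nat.prime_dvd_prime_iff_eq Fact.out Nat.prime_two).1 h3)
  obtain ⟨T, hT, hrep⟩ := exists_T1 (k := k) p
  refine ⟨T, hT, fun φ => ?_⟩
  obtain ⟨a₁, h₁⟩ := hrep (φ.comp (emb1 k))
  obtain ⟨a₂, h₂⟩ := hrep (φ.comp (emb2 k))
  obtain ⟨a₃, h₃⟩ := hrep (φ.comp (emb3 k))
  refine ⟨!![a₁ / 2, a₃; a₂, -(a₁ / 2)], by rw [Matrix.trace_fin_two_of, add_neg_cancel],
    fun Y => ?_⟩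
  have h : (Y : M2 k).trace = 0 := Y.2
  rw [Matrix.trace_fin_two] at h
  have e1 := h₁ ((Y : M2 k) 0 0)
  have e2 := h₂ ((Y : M2 k) 0 1)
  have e3 := h₃ ((Y : M2 k) 1 0)
  simp only [AddMonoidHom.comp_apply] at e1 e2 e3
  conv_lhs => rw [emb_decomp Y]
  rw [map_add, map_add, e1, e2, e3, ← map_add, ← map_add]
  congr 1
  rw [Matrix.trace_fin_two]
  simp only [Matrix.mul_apply, Fin.sum_univ_two, Matrix.of_apply, Matrix.cons_val',
    Matrix.cons_val_zero, Matrix.cons_val_one, Matrix.cons_val_fin_one]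
  have h11 : (Y : M2 k) 1 1 = -(Y : M2 k) 0 0 := by linear_combination h
  rw [h11]
  field_simp
  ring

/-- uniqueness of `X` -/
theorem T_unique {k : Type} [Field k] (p : ℕ) (h2 : (2 : k) ≠ 0) (T : k →+ ZMod p)
    (hT : ∀ a : k, a ≠ 0 → ∃ c, T (c * a) ≠ 0) (X : M2 k) (hX : X.trace = 0)
    (h : ∀ Y : Ad0 k, T (Matrix.trace (X * (Y : M2 k))) = 0) : X = 0 := by
  rw [Matrix.trace_fin_two] at hX
  have key : ∀ a : k, (∀ c, T (c * a) = 0) → a = 0 := by
    intro a ha
    by_contra hne
    obtain ⟨c, hc⟩ := hT a hne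
    exact hc (ha c)
  have h00 : X 0 0 = 0 := by
    have : 2 * X 0 0 = 0 := by
      apply key
      intro c
      have := h (emb1 k c)
      rw [Matrix.trace_fin_two] at this
      simp only [emb1, AddMonoidHom.coe_mk, ZeroHom.coe_mk, Matrix.mul_apply, Fin.sum_univ_two,
        Matrix.of_apply, Matrix.cons_val', Matrix.cons_val_zero, Matrix.cons_val_one,
        Matrix.cons_val_fin_one] at this
      rw [← this]
      congr 1
      linear_combination c * hX
    exact (mul_eq_zero.1 this).resolve_left h2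
  have h10 : X 1 0 = 0 := by
    apply key
    intro c
    have := h (emb2 k c)
    rw [Matrix.trace_fin_two] at this
    simp only [emb2, AddMonoidHom.coe_mk, ZeroHom.coe_mk, Matrix.mul_apply, Fin.sum_univ_two,
      Matrix.of_apply, Matrix.cons_val', Matrix.cons_val_zero, Matrix.cons_val_one,
      Matrix.cons_val_fin_one] at this
    rw [← this]
    congr 1
    ring
  have h01 : X 0 1 = 0 := by
    apply key
    intro c
    have := h (emb3 k c)
    rw [Matrix.trace_fin_two] at this
    simp only [emb3, AddMonoidHom.coe_mk, ZeroHom.coe_mk, Matrix.mul_apply, Fin.sum_univ_two,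
      Matrix.of_apply, Matrix.cons_val', Matrix.cons_val_zero, Matrix.cons_val_one,
      Matrix.cons_val_fin_one] at this
    rw [← this]
    congr 1
    ring
  have h11 : X 1 1 = 0 := by linear_combination hX - h00
  ext i j
  fin_cases i <;> fin_cases j
  · exact h00
  · exact h01
  · exact h10
  · exact h11

end Fermat.Agent.S56.KS
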