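import Mathlib

/-!
# S56 / KS / Frat  [S56/KS-FRAT]  (Mathlib only, ~80 lines)

Finite group `Γ`, `d : Γ →* C` a character whose values have order prime to `p`.  There is a `p`-subgroup `P` of index prime to `p` such that
every value of `d` is taken on the normaliser of `P` (Frattini argument).

PROOF. `P : Sylow p Γ` (`default` / `Sylow.nonempty`), `¬ p ∣ P.index` = `Sylow.not_dvd_index` (name may vary: `not_dvd_index_sylow`).
`P ≤ N := d.ker`: for `h ∈ P`, `h ^ p ^ a = 1` so `(d h) ^ p ^ a = 1`, and `(d h) ^ e = 1` with `p ∤ e`: coprime exponents, `d h = 1`.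
`P' := P.subtype hle : Sylow p N`; `Sylow.normalizer_sup_eq_top P' : (P'.map N.subtype).normalizer ⊔ N = ⊤` and `P'.map N.subtype = P`.
So `g = n * g₁` with `n` in the normaliser, `g₁ ∈ N` (`Subgroup.mem_sup`), `d g = d n`.
-/

set_option autoImplicit false

namespace Fermat.Agent.S56.KS

theorem exists_sylow_frattini {Γ : Type*} [Group Γ] [Finite Γ] (p : ℕ) [Fact p.Prime]
    {C : Type*} [CommGroup C] (d : Γ →* C) (hC : ∀ g, ∃ e : ℕ, ¬ p ∣ e ∧ (d g) ^ e = 1) :
    ∃ P : Subgroup Γ, IsPGroup p P ∧ ¬ p ∣ P.index ∧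
      ∀ g, ∃ n, d n = d g ∧ ∀ h, h ∈ P ↔ n⁻¹ * h * n ∈ P := by
  obtain ⟨P⟩ : Nonempty (Sylow p Γ) := inferInstance
  have hle : (P : Subgroup Γ) ≤ d.ker := by
    intro h hh
    rw [MonoidHom.mem_ker]
    obtain ⟨a, ha⟩ := P.isPGroup' ⟨h, hh⟩
    have ha' : h ^ p ^ a = 1 := congrArg Subtype.val ha
    obtain ⟨e, he, he'⟩ := hC h
    have h1 : (d h) ^ p ^ a = 1 := by rw [← map_pow, ha', map_one]
    have hcop : Nat.Coprime (p ^ a) e :=
      Nat.Coprime.pow_left a ((Nat.Prime.coprime_iff_not_dvd Fact.out).2 he)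
    have h2 : orderOf (d h) ∣ 1 := by
      rw [← Nat.Coprime.gcd_eq_one hcop]
      exact Nat.dvd_gcd (orderOf_dvd_of_pow_eq_one h1) (orderOf_dvd_of_pow_eq_one he')
    exact orderOf_eq_one_iff.1 (Nat.dvd_one.1 h2)
  have htop := Sylow.normalizer_sup_eq_top' P hle
  refine ⟨P, P.isPGroup', P.not_dvd_index, fun g => ?_⟩
  have hg : g ∈ Subgroup.normalizer ((P : Subgroup Γ) : Set Γ) ⊔ d.ker := by
    have : g ∈ (⊤ : Subgroup Γ) := trivial
    rw [← htop] at this
    exact this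
  obtain ⟨n, hn, z, hz, rfl⟩ := Subgroup.mem_sup_of_normal_right.1 hg
  refine ⟨n, by rw [map_mul, MonoidHom.mem_ker.1 hz, mul_one], fun h => ?_⟩
  have hn' : n⁻¹ ∈ Subgroup.normalizer ((P : Subgroup Γ) : Set Γ) := inv_mem hn
  have := Subgroup.mem_normalizer_iff.1 hn' h
  rwa [inv_inv] at this

end Fermat.Agent.S56.KS
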