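import Fermat.Agent.S56.KS.Defs

/-!
# S56 / KS / SS  [S56/KS-SS]  (Mathlib only, ~120 lines)

For a twisted cocycle `ψ` and `g` with `det (r g) = 1`, split characteristic polynomial, `tr² ≠ 4` (`k` finite): `tr (r g * ψ g) = 0`.

PROOF. (1) `charpoly = (X - α)(X - β)`, so `α + β = tr`, `α β = det = 1`, `(α - β)² = tr² - 4 ≠ 0`: `α ≠ β`, `α, β ≠ 0`.
With `e := |k| - 1`: `α ^ e = β ^ e = 1` (`FiniteField.pow_card_sub_one_eq_one`), so `X - α` and `X - β` (coprime) divide `X ^ e - 1`, so `charpoly ∣ X ^ e - 1`,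
and `Matrix.aeval_self_charpoly` gives `(r g) ^ e = 1` as matrices.  `(e : k) = -1 ≠ 0` (`FiniteField.cast_card_eq_zero`).
(2) `t X := tr (r g * X)`; `t (tw (r g) X) = tr (g g X adj g) = tr (adj g g g X) = det g * t X = t X`.  `ψ 1 = 0` (from `mul 1 1`, `tw 1 X = X`).
By induction `t (ψ (g ^ j)) = j * t (ψ g)` (`ψ (g ^ (j+1)) = ψ (g * g ^ j) = ψ g + tw (r g) (ψ (g ^ j))`).
(3) CAUTION: `r` need not be injective, so `g ^ e` need not be `1`.  Use instead `hker : r u = 1 → ψ u = 0` with `u = g ^ e`.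
-/

set_option autoImplicit false

namespace Fermat.Agent.S56.KS

open Polynomial

theorem ssAux_coeffs {k : Type*} [Field k] (G : Mk k) {α β : k}
    (h : G.charpoly = (X - C α) * (X - C β)) : G.trace = α + β ∧ G.det = α * β := by
  rw [Matrix.charpoly_fin_two] at h
  have e : ((X - C α) * (X - C β) : k[X]) = X ^ 2 - C (α + β) * X + C (α * β) := by
    simp only [map_add, map_mul]; ring
  rw [e] at h
  constructor
  · have := congrArg (fun f => Polynomial.coeff f 1) h
    simp only [Polynomial.coeff_add, Polynomial.coeff_sub, Polynomial.coeff_X_pow,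
      Polynomial.coeff_C_mul, Polynomial.coeff_X_one, Polynomial.coeff_C] at this
    norm_num at this
    linear_combination -this
  · have := congrArg (fun f => Polynomial.coeff f 0) h
    simp only [Polynomial.coeff_add, Polynomial.coeff_sub, Polynomial.coeff_X_pow,
      Polynomial.coeff_C_mul, Polynomial.coeff_X_zero, Polynomial.coeff_C] at this
    norm_num at this
    exact this

theorem ss_trace {k : Type*} [Field k] [Finite k] {Γ : Type*} [Group Γ]
    (r : Γ →* GL (Fin 2) k) (ψ : Γ → Mk k) (hψ : IsTC r ψ) (hker : ∀ u, r u = 1 → ψ u = 0)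
    (g : Γ) (hdet : (r g : Mk k).det = 1)
    (hsp : ∃ α β : k, (r g : Mk k).charpoly = (X - C α) * (X - C β))
    (hreg : (r g : Mk k).trace ^ 2 ≠ 4) :
    ((r g : Mk k) * ψ g).trace = 0 := by
  classical
  have : Fintype k := Fintype.ofFinite k
  obtain ⟨α, β, hch⟩ := hsp
  obtain ⟨htr, hd⟩ := ssAux_coeffs _ hch
  rw [hdet] at hd
  have hαβ : α ≠ β := by
    rintro rfl
    apply hreg
    rw [htr]
    linear_combination (-4 : k) * hd
  have hα : α ≠ 0 := by rintro rfl; rw [zero_mul] at hd; exact one_ne_zero hd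
  have hβ : β ≠ 0 := by rintro rfl; rw [mul_zero] at hd; exact one_ne_zero hd
  set e : ℕ := Fintype.card k - 1 with he
  have hαe : α ^ e = 1 := FiniteField.pow_card_sub_one_eq_one α hα
  have hβe : β ^ e = 1 := FiniteField.pow_card_sub_one_eq_one β hβ
  have hdvd : (X - C α) * (X - C β) ∣ (X ^ e - 1 : k[X]) := by
    refine IsCoprime.mul_dvd ?_ ?_ ?_
    · exact Polynomial.isCoprime_X_sub_C_of_isUnit_sub (sub_ne_zero.2 hαβ).isUnit
    · rw [Polynomial.dvd_iff_isRoot]; simp [hαe]
    · rw [Polynomial.dvd_iff_isRoot]; simp [hβe]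
  have hGe : (r g : Mk k) ^ e = 1 := by
    obtain ⟨Qp, hQ⟩ := hdvd
    have h1 := congrArg (Polynomial.aeval (r g : Mk k)) hQ
    rw [← hch, map_mul, Matrix.aeval_self_charpoly, zero_mul] at h1
    simp only [map_sub, map_pow, Polynomial.aeval_X, map_one] at h1
    exact sub_eq_zero.1 h1
  have hru : r (g ^ e) = 1 := by
    apply Units.ext
    rw [map_pow, Units.val_pow_eq_pow_val, hGe, Units.val_one]
  have ht : ∀ Y : Mk k, ((r g : Mk k) * tw (r g) Y).trace = ((r g : Mk k) * Y).trace := by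
    intro Y
    rw [tw, ← Matrix.mul_assoc, Matrix.trace_mul_comm, ← Matrix.mul_assoc, ← Matrix.mul_assoc,
      Matrix.adjugate_mul, hdet, one_smul, Matrix.one_mul]
  have hind : ∀ j : ℕ, ((r g : Mk k) * ψ (g ^ j)).trace = j * ((r g : Mk k) * ψ g).trace := by
    intro j
    induction j with
    | zero => rw [pow_zero, hker 1 (map_one r), Matrix.mul_zero, Matrix.trace_zero, Nat.cast_zero, zero_mul]
    | succ j ih =>
      rw [pow_succ', hψ.mul, Matrix.mul_add, Matrix.trace_add, ht, ih]
      push_cast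
      ring
  have h1 := hind e
  rw [hker _ hru, Matrix.mul_zero, Matrix.trace_zero] at h1
  have hek : (e : k) = -1 := by
    rw [he, Nat.cast_sub Fintype.card_pos, Nat.cast_card_eq_zero, Nat.cast_one, zero_sub]
  rw [hek] at h1
  have := h1.symm
  simpa using this

end Fermat.Agent.S56.KS
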