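import Fermat.Agent.S56.KS.Defs

/-!
# S56 / KS / Syl  [S56/KS-SYL]  (Mathlib only, ~150 lines)

A `p`-subgroup of `GL₂(k)`, `k` finite of characteristic `p`, is conjugate into the upper unipotent matrices.

PROOF. `P` acts on the finite set `Fin 2 → k` (by `mulVec`), whose cardinality `|k|²` is divisible by `p`, and fixes `0`:
`IsPGroup.exists_fixed_point_of_prime_dvd_card_of_fixed_point` gives a fixed `v ≠ 0`.  Complete `v` to a basis `(v, w)` (`w = e₀` or `e₁`),
`T⁻¹ :=` the matrix with columns `v, w`.  For `g ∈ P`, `T g T⁻¹` has first column `(1, 0)`: `= !![1, b; 0, d]`, `d = det g`.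
`g ^ p ^ a = 1` so `d ^ p ^ a = 1`; in characteristic `p`: `(d - 1) ^ p ^ a = d ^ p ^ a - 1 = 0` (`sub_pow_char_pow`), so `d = 1`.
-/

set_option autoImplicit false

namespace Fermat.Agent.S56.KS

theorem pgroup_unip {k : Type*} [Field k] [Finite k] (p : ℕ) [Fact p.Prime] [CharP k p]
    (P : Subgroup (GL (Fin 2) k)) (hP : IsPGroup p P) :
    ∃ T : GL (Fin 2) k, ∀ g ∈ P, ∃ b, T * g * T⁻¹ = uU b := by
  classical
  let act : MulAction P (Fin 2 → k) :=
    { smul := fun g v => ((g : GL (Fin 2) k) : Mk k).mulVec v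
      one_smul := fun v => by
        show ((1 : GL (Fin 2) k) : Mk k).mulVec v = v
        simp
      mul_smul := fun g h v => by
        show (((g : GL (Fin 2) k) * (h : GL (Fin 2) k) : GL (Fin 2) k) : Mk k).mulVec v =
          ((g : GL (Fin 2) k) : Mk k).mulVec (((h : GL (Fin 2) k) : Mk k).mulVec v)
        rw [Matrix.mulVec_mulVec, Units.val_mul] }
  have hdvd : p ∣ Nat.card (Fin 2 → k) := by
    rw [Nat.card_fun, Nat.card_fin]
    have : Fintype k := Fintype.ofFinite k
    have h1 : p ∣ Nat.card k := (CharP.cast_eq_zero_iff k p (Nat.card k)).1 (by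
      rw [Nat.card_eq_fintype_card]; exact Nat.cast_card_eq_zero k)
    exact dvd_pow h1 two_ne_zero
  have h0 : (0 : Fin 2 → k) ∈ MulAction.fixedPoints P (Fin 2 → k) := fun g => Matrix.mulVec_zero _
  obtain ⟨v, hv, hv0⟩ := hP.exists_fixed_point_of_prime_dvd_card_of_fixed_point (Fin 2 → k) hdvd h0
  have hfix : ∀ g ∈ P, (g : Mk k).mulVec v = v := fun g hg => hv ⟨g, hg⟩
  obtain ⟨Q, hQ⟩ : ∃ Q : GL (Fin 2) k, (Q : Mk k).mulVec ![1, 0] = v := by
    by_cases h : v 0 = 0
    · have h1 : v 1 ≠ 0 := by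
        intro h1
        apply hv0
        ext i
        fin_cases i
        · exact h.symm
        · exact h1.symm
      refine ⟨Matrix.GeneralLinearGroup.mkOfDetNeZero !![v 0, 1; v 1, 0] (by
        simp [Matrix.det_fin_two, h1]), ?_⟩
      ext i
      fin_cases i <;> simp [Matrix.GeneralLinearGroup.mkOfDetNeZero, Matrix.mulVec, dotProduct]
    · refine ⟨Matrix.GeneralLinearGroup.mkOfDetNeZero !![v 0, 0; v 1, 1] (by
        simp [Matrix.det_fin_two, h]), ?_⟩
      ext i
      fin_cases i <;> simp [Matrix.GeneralLinearGroup.mkOfDetNeZero, Matrix.mulVec, dotProduct]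
  refine ⟨Q⁻¹, fun g hg => ?_⟩
  set M : GL (Fin 2) k := Q⁻¹ * g * Q⁻¹⁻¹ with hM
  have hMc : (M : Mk k) = ((Q⁻¹ : GL (Fin 2) k) : Mk k) * (g : Mk k) * (Q : Mk k) := by
    rw [hM, inv_inv, Units.val_mul, Units.val_mul]
  have hMe : (M : Mk k).mulVec ![1, 0] = ![1, 0] := by
    rw [hMc, ← Matrix.mulVec_mulVec, hQ, ← Matrix.mulVec_mulVec, hfix g hg, ← hQ, Matrix.mulVec_mulVec,
      ← Units.val_mul, inv_mul_cancel, Units.val_one, Matrix.one_mulVec]
  have h00 : (M : Mk k) 0 0 = 1 := by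
    have := congrFun hMe 0
    simpa [Matrix.mulVec, dotProduct] using this
  have h10 : (M : Mk k) 1 0 = 0 := by
    have := congrFun hMe 1
    simpa [Matrix.mulVec, dotProduct] using this
  have hdetM : (M : Mk k).det = (g : Mk k).det := by
    rw [hMc, Matrix.det_mul, Matrix.det_mul, mul_comm, ← mul_assoc, ← Matrix.det_mul, ← Units.val_mul,
      mul_inv_cancel, Units.val_one, Matrix.det_one, one_mul]
  have h11 : (M : Mk k) 1 1 = 1 := by
    obtain ⟨a, ha⟩ := hP ⟨g, hg⟩
    have ha' : g ^ p ^ a = 1 := congrArg Subtype.val ha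
    have h1 : (g : Mk k).det ^ p ^ a = 1 := by
      rw [← Matrix.det_pow, ← Units.val_pow_eq_pow_val, ha', Units.val_one, Matrix.det_one]
    have h2 : (M : Mk k).det = (M : Mk k) 1 1 := by
      rw [Matrix.det_fin_two, h00, h10, one_mul, mul_zero, sub_zero]
    rw [← hdetM, h2] at h1
    have h3 : ((M : Mk k) 1 1 - 1) ^ p ^ a = 0 := by
      rw [sub_pow_char_pow, h1, one_pow, sub_self]
    exact sub_eq_zero.1 (pow_eq_zero_iff (pow_ne_zero _ (Fact.out : p.Prime).ne_zero) |>.1 h3)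
  refine ⟨(M : Mk k) 0 1, Units.ext ?_⟩
  rw [coe_uU]
  ext i j
  fin_cases i <;> fin_cases j
  · exact h00
  · rfl
  · exact h10
  · exact h11

end Fermat.Agent.S56.KS
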