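import Fermat.Agent.S56.KS.Core
import Fermat.Agent.S56.KS.Avg
import Fermat.Agent.S56.KS.Frat
import Fermat.Agent.S56.KS.Syl
import Fermat.Agent.S56.KS.SS

/-!
# S56 / KS / GT : `H¹(Γ, ad⁰(det)) = 0` for a finite subgroup of `GL₂(k)` without stable line (helper9; assembly)
-/

set_option autoImplicit false

namespace Fermat.Agent.S56.KS

open Matrix

theorem two_ne_zero_of_char {k : Type*} [Field k] (p : ℕ) [Fact p.Prime] [CharP k p] (hp2 : p ≠ 2) :
    (2 : k) ≠ 0 := by
  intro h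
  have h3 : ((2 : ℕ) : k) = 0 := by exact_mod_cast h
  rw [CharP.cast_eq_zero_iff k p] at h3
  exact hp2 ((Nat.prime_dvd_prime_iff_eq Fact.out Nat.prime_two).1 h3)

theorem not_dvd_card_units {k : Type*} [Field k] [Finite k] (p : ℕ) [Fact p.Prime] [CharP k p] :
    ¬ p ∣ Nat.card kˣ := by
  classical
  have : Fintype k := Fintype.ofFinite k
  intro h
  rw [Nat.card_eq_fintype_card, Fintype.card_units] at h
  have h1 : p ∣ Fintype.card k := by
    rw [← CharP.cast_eq_zero_iff k p]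
    exact Nat.cast_card_eq_zero k
  have h2 : 1 ≤ Fintype.card k := Fintype.card_pos
  have h3 : p ∣ 1 := by
    have := (Nat.dvd_sub h1 h)
    rwa [Nat.sub_sub_self h2] at this
  exact (Fact.out : p.Prime).one_lt.ne' (Nat.dvd_one.1 h3)

theorem mulVec_e0 {k : Type*} [Field k] (M : Mk k) (h : M 1 0 = 0) :
    M.mulVec ![1, 0] = M 0 0 • ![1, 0] := by
  ext i
  fin_cases i
  · simp [Matrix.mulVec, dotProduct, Fin.sum_univ_two]
  · simp [Matrix.mulVec, dotProduct, Fin.sum_univ_two, h]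

/-- a coboundary with an arbitrary `m` is a coboundary with a trace zero `m` -/
theorem isTB_of_cob {k : Type*} [Field k] {Γ : Type*} [Group Γ] (h2 : (2 : k) ≠ 0)
    (r : Γ →* GL (Fin 2) k) (ψ : Γ → Mk k) (hψ : IsTC r ψ) (M : Mk k)
    (hM : ∀ g, ψ g = tw (r g) M - M) : IsTB r ψ := by
  refine ⟨M - (M.trace / 2) • (1 : Mk k), ?_, fun g => ?_⟩
  · rw [Matrix.trace_sub, Matrix.trace_smul, Matrix.trace_one, Fintype.card_fin, smul_eq_mul]
    push_cast
    field_simp
    ring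
  · have h1 : M.trace * ((r g : Mk k).det - 1) = 0 := by
      have := hψ.tr g
      rw [hM g, Matrix.trace_sub, TwL.trace] at this
      linear_combination this
    rw [TwL.sub, TwL.smul, TwL.one_mat, hM g, smul_smul]
    have h3 : (M.trace / 2 * (r g : Mk k).det) • (1 : Mk k) = (M.trace / 2) • (1 : Mk k) := by
      congr 1
      field_simp
      linear_combination h1
    rw [h3]
    abel

theorem gt {k : Type*} [Field k] [Finite k] {Γ : Type*} [Group Γ] [Finite Γ] (p : ℕ)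
    [Fact p.Prime] [CharP k p] (hp2 : p ≠ 2)
    (r : Γ →* GL (Fin 2) k) (hinj : Function.Injective r) (ψ : Γ → Mk k) (hψ : IsTC r ψ)
    (hline : NoLine r ⊤) (hsp : Split r)
    (hns : ∃ g, ∀ j : ℕ, (r g : Mk k).det * (j : k) ^ 2 ≠ 1) : IsTB r ψ := by
  classical
  have h2 : (2 : k) ≠ 0 := two_ne_zero_of_char p hp2
  let d : Γ →* kˣ := Matrix.GeneralLinearGroup.det.comp r
  have hd : ∀ g, ((d g : kˣ) : k) = (r g : Mk k).det := fun g => rfl
  obtain ⟨P, hPp, hPi, hPn⟩ := exists_sylow_frattini p d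
    (fun g => ⟨Nat.card kˣ, not_dvd_card_units p, pow_card_eq_one'⟩)
  have hker : ∀ u, r u = 1 → ψ u = 0 := fun u hu => by
    have : u = 1 := hinj (by rw [hu, map_one])
    rw [this, TwL.psi_one hψ]
  have hSS : ∀ g, (r g : Mk k).det = 1 → (r g : Mk k).trace ^ 2 ≠ 4 →
      ((r g : Mk k) * ψ g).trace = 0 := fun g h1 h2 => ss_trace r ψ hψ hker g h1 (hsp g) h2
  have hPcob : ∃ m : Mk k, ∀ g ∈ P, ψ g = tw (r g) m - m := by
    by_cases htriv : ∀ g ∈ P, g = 1
    · exact ⟨0, fun g hg => by rw [htriv g hg, TwL.psi_one hψ, TwL.zero, sub_zero]⟩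
    push Not at htriv
    obtain ⟨h₀, hh₀, hne⟩ := htriv
    obtain ⟨T, hT⟩ := pgroup_unip p (P.map r) (hPp.map r)
    have hTi : ((T⁻¹ : GL (Fin 2) k) : Mk k) * (T : Mk k) = 1 := by
      rw [← Units.val_mul, inv_mul_cancel, Units.val_one]
    have hTi' : (T : Mk k) * ((T⁻¹ : GL (Fin 2) k) : Mk k) = 1 := by
      rw [← Units.val_mul, mul_inv_cancel, Units.val_one]
    let ψ' : Γ → Mk k := fun g => (T : Mk k) * ψ g * ((T⁻¹ : GL (Fin 2) k) : Mk k)
    have hcoe : ∀ g, (conjR T r g : Mk k) = (T : Mk k) * (r g : Mk k) * ((T⁻¹ : GL (Fin 2) k) : Mk k) :=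
      fun g => rfl
    have hψ' : IsTC (conjR T r) ψ' := by
      refine ⟨fun g => ?_, fun g h => ?_⟩
      · show ((T : Mk k) * ψ g * ((T⁻¹ : GL (Fin 2) k) : Mk k)).trace = 0
        rw [Matrix.trace_mul_cycle, hTi, Matrix.one_mul, hψ.tr]
      · show (T : Mk k) * ψ (g * h) * ((T⁻¹ : GL (Fin 2) k) : Mk k) =
          (T : Mk k) * ψ g * ((T⁻¹ : GL (Fin 2) k) : Mk k) +
            tw (T * r g * T⁻¹) ((T : Mk k) * ψ h * ((T⁻¹ : GL (Fin 2) k) : Mk k))
        rw [TwL.conj, hψ.mul, Matrix.mul_add, Matrix.add_mul]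
    have hinj' : Function.Injective (conjR T r) := by
      intro a b hab
      apply hinj
      simp only [conjR_apply] at hab
      exact mul_left_cancel (mul_right_cancel hab)
    have hP' : ∀ g ∈ P, ∃ b, conjR T r g = uU b := fun g hg =>
      hT (r g) (Subgroup.mem_map_of_mem r hg)
    have hdet' : ∀ g, (conjR T r g : Mk k).det = (r g : Mk k).det := by
      intro g
      rw [hcoe, Matrix.det_mul, Matrix.det_mul, mul_comm, ← mul_assoc, ← Matrix.det_mul, hTi,
        Matrix.det_one, one_mul]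
    have htr' : ∀ g, (conjR T r g : Mk k).trace = (r g : Mk k).trace := by
      intro g
      rw [hcoe, Matrix.trace_mul_cycle, hTi, Matrix.one_mul]
    have hSS' : ∀ g, (conjR T r g : Mk k).det = 1 → (conjR T r g : Mk k).trace ^ 2 ≠ 4 →
        ((conjR T r g : Mk k) * ψ' g).trace = 0 := by
      intro g h1 h3
      rw [hdet'] at h1
      rw [htr'] at h3
      have := hSS g h1 h3
      show ((T : Mk k) * (r g : Mk k) * ((T⁻¹ : GL (Fin 2) k) : Mk k) *
        ((T : Mk k) * ψ g * ((T⁻¹ : GL (Fin 2) k) : Mk k))).trace = 0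
      have e : (T : Mk k) * (r g : Mk k) * ((T⁻¹ : GL (Fin 2) k) : Mk k) *
          ((T : Mk k) * ψ g * ((T⁻¹ : GL (Fin 2) k) : Mk k)) =
          (T : Mk k) * ((r g : Mk k) * ψ g) * ((T⁻¹ : GL (Fin 2) k) : Mk k) := by
        simp only [Matrix.mul_assoc]
        rw [← Matrix.mul_assoc ((T⁻¹ : GL (Fin 2) k) : Mk k) (T : Mk k), hTi, Matrix.one_mul]
      rw [e, Matrix.trace_mul_cycle, hTi, Matrix.one_mul, this]
    -- an element moving the line
    let e0 : Fin 2 → k := ![1, 0]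
    let v : Fin 2 → k := ((T⁻¹ : GL (Fin 2) k) : Mk k).mulVec e0
    have hTv : (T : Mk k).mulVec v = e0 := by
      show (T : Mk k).mulVec (((T⁻¹ : GL (Fin 2) k) : Mk k).mulVec e0) = e0
      rw [Matrix.mulVec_mulVec, hTi', Matrix.one_mulVec]
    have hv : v ≠ 0 := by
      intro h
      rw [h, Matrix.mulVec_zero] at hTv
      have := congrFun hTv 0
      simp [e0] at this
    obtain ⟨g₁, -, hg₁⟩ := hline v hv
    have hc : (conjR T r g₁ : Mk k) 1 0 ≠ 0 := by
      intro h0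
      refine hg₁ ((conjR T r g₁ : Mk k) 0 0) ?_
      have h3 : (conjR T r g₁ : Mk k).mulVec e0 = (conjR T r g₁ : Mk k) 0 0 • e0 :=
        mulVec_e0 _ h0
      rw [hcoe, ← Matrix.mulVec_mulVec, ← Matrix.mulVec_mulVec] at h3
      have h4 := congrArg (((T⁻¹ : GL (Fin 2) k) : Mk k).mulVec) h3
      rw [Matrix.mulVec_mulVec, hTi, Matrix.one_mulVec, Matrix.mulVec_smul] at h4
      exact h4
    let γ : Γ := g₁ * h₀ * g₁⁻¹
    obtain ⟨b₀, hb₀⟩ := hP' h₀ hh₀
    have hγ : (conjR T r γ : Mk k).det = 1 := by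
      have e : conjR T r γ = conjR T r g₁ * uU b₀ * (conjR T r g₁)⁻¹ := by
        rw [← hb₀, ← map_inv, ← map_mul, ← map_mul]
      have e2 : Matrix.GeneralLinearGroup.det (conjR T r γ) = 1 := by
        rw [e, map_mul, map_mul, map_inv, mul_comm, ← mul_assoc, inv_mul_cancel, one_mul]
        ext
        simp [Matrix.GeneralLinearGroup.val_det_apply, Matrix.det_fin_two]
      exact congrArg (fun u : kˣ => (u : k)) e2
    have hγ10 : (conjR T r γ : Mk k) 1 0 ≠ 0 := by
      intro h0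
      have e : (conjR T r γ : Mk k) * (conjR T r g₁ : Mk k) =
          (conjR T r g₁ : Mk k) * !![1, b₀; 0, 1] := by
        rw [← coe_uU, ← hb₀, ← Units.val_mul, ← Units.val_mul, ← map_mul, ← map_mul]
        congr 2
        show g₁ * h₀ * g₁⁻¹ * g₁ = g₁ * h₀
        group
      have e10 := congrFun (congrFun e 1) 0
      have e00 := congrFun (congrFun e 0) 0
      simp only [Matrix.mul_apply, Fin.sum_univ_two, Matrix.of_apply, Matrix.cons_val',
        Matrix.cons_val_zero, Matrix.cons_val_one, Matrix.cons_val_fin_one, h0] at e10 e00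
      have h11 : (conjR T r γ : Mk k) 1 1 = 1 := by
        have : (conjR T r γ : Mk k) 1 1 * (conjR T r g₁ : Mk k) 1 0 =
            1 * (conjR T r g₁ : Mk k) 1 0 := by linear_combination e10
        exact mul_right_cancel₀ hc this
      have h00 : (conjR T r γ : Mk k) 0 0 = 1 := by
        have := hγ
        rw [Matrix.det_fin_two, h0, h11] at this
        linear_combination this
      have h01 : (conjR T r γ : Mk k) 0 1 = 0 := by
        have : (conjR T r γ : Mk k) 0 1 * (conjR T r g₁ : Mk k) 1 0 =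
            0 * (conjR T r g₁ : Mk k) 1 0 := by
          rw [h00] at e00
          linear_combination e00
        exact mul_right_cancel₀ hc this
      have h1 : conjR T r γ = 1 := by
        ext i j
        fin_cases i <;> fin_cases j
        · simpa using h00
        · simpa using h01
        · simpa using h0
        · simpa using h11
      have h3 : γ = 1 := hinj' (by rw [h1, map_one])
      apply hne
      have : g₁ * h₀ * g₁⁻¹ = 1 := h3
      have h4 : h₀ = g₁⁻¹ * (g₁ * h₀ * g₁⁻¹) * g₁ := by group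
      rw [h4, this]
      group
    obtain ⟨gn, hgn⟩ := hns
    obtain ⟨n₀, hn₀d, hn₀P⟩ := hPn gn
    have hns' : ∀ j : ℕ, (conjR T r n₀ : Mk k).det * (j : k) ^ 2 ≠ 1 := by
      intro j
      rw [hdet', ← hd, hn₀d, hd]
      exact hgn j
    obtain ⟨m', hm'⟩ := core p hp2 (conjR T r) hinj' ψ' hψ' P hP' hSS' γ hγ hγ10 n₀ hn₀P hns'
    refine ⟨((T⁻¹ : GL (Fin 2) k) : Mk k) * m' * (T : Mk k), fun g hg => ?_⟩
    have h5 := hm' g hg
    have h6 := TwL.conj T⁻¹ (conjR T r g) m'
    rw [inv_inv] at h6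
    have h7 : T⁻¹ * conjR T r g * T = r g := by
      rw [conjR_apply]
      group
    rw [h7] at h6
    rw [h6, ← Matrix.sub_mul, ← Matrix.mul_sub, ← h5]
    show ψ g = ((T⁻¹ : GL (Fin 2) k) : Mk k) *
      ((T : Mk k) * ψ g * ((T⁻¹ : GL (Fin 2) k) : Mk k)) * (T : Mk k)
    simp only [Matrix.mul_assoc]
    rw [hTi, Matrix.mul_one, ← Matrix.mul_assoc, hTi, Matrix.one_mul]
  obtain ⟨m, hm⟩ := hPcob
  let ψ2 : Γ → Mk k := fun g => ψ g - (tw (r g) m - m)
  have hψ2 : ∀ g h, ψ2 (g * h) = ψ2 g + TwL.hom r g (ψ2 h) := by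
    intro g h
    simp only [ψ2, TwL.hom_apply, hψ.mul, map_mul, TwL.mul, TwL.sub]
    abel
  have hP2 : ∀ h ∈ P, ψ2 h = 0 := fun h hh => sub_eq_zero.2 (hm h hh)
  have hidx : (P.index : k) ≠ 0 := by
    rw [Ne, CharP.cast_eq_zero_iff k p]
    exact hPi
  obtain ⟨m2, hm2⟩ := avg (TwL.hom r) P
    (fun a => ⟨(P.index : k)⁻¹ • a, by
      rw [← Nat.cast_smul_eq_nsmul k, smul_smul, mul_inv_cancel₀ hidx, one_smul]⟩)
    (fun a ha => by
      rw [← Nat.cast_smul_eq_nsmul k] at ha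
      exact (smul_eq_zero.1 ha).resolve_left hidx) ψ2 hψ2 hP2
  refine isTB_of_cob h2 r ψ hψ (m + m2) (fun g => ?_)
  have := hm2 g
  simp only [ψ2, TwL.hom_apply] at this
  rw [TwL.add]
  rw [sub_eq_iff_eq_add] at this
  rw [this]
  abel

end Fermat.Agent.S56.KS
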