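import Fermat.Agent.S56.KS.Defs

/-!
# S56 / KS / LA3  [S56/KS-LA3]  (Mathlib only, ~100 lines)

Trace zero 2x2 matrices form a 3-dimensional space with the non-degenerate form `tr (A X)` (`2 ≠ 0`): two independent vectors cannot be orthogonal to two independent vectors.

PROOF. Coordinates `A = !![a₁, a₂; a₃, -a₁]`, `tr (A X) = 2 a₁ x₁ + a₂ x₃ + a₃ x₂ = a · x̃` with `x̃ := (2 x₁, x₃, x₂)`.  So: `a, a', x̃, ỹ ∈ k³` with `a · x̃ = a · ỹ = a' · x̃ = a' · ỹ = 0`.
`n := a × a'`.  `x̃ × n = a (x̃ · a') - a' (x̃ · a) = 0`, the same for `ỹ`.  If `n = 0` then `a, a'` are proportional (if `a ≠ 0`, say `a_i ≠ 0`: `a' = (a'_i / a_i) a`).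
If `n ≠ 0`, say `n_i ≠ 0`: `x̃ = (x̃_i / n_i) n`, `ỹ = (ỹ_i / n_i) n`; if `x̃ ≠ 0` then `ỹ` is a multiple of `x̃`.
(or use finrank arguments of Mathlib.)
-/

set_option autoImplicit false

namespace Fermat.Agent.S56.KS

theorem la3Aux_prop {k : Type*} [Field k] (a1 a2 a3 b1 b2 b3 : k) (h1 : a2 * b3 - a3 * b2 = 0)
    (h2 : a3 * b1 - a1 * b3 = 0) (h3 : a1 * b2 - a2 * b1 = 0) :
    (a1 = 0 ∧ a2 = 0 ∧ a3 = 0) ∨ ∃ c, b1 = c * a1 ∧ b2 = c * a2 ∧ b3 = c * a3 := by
  by_cases ha1 : a1 = 0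
  · by_cases ha2 : a2 = 0
    · by_cases ha3 : a3 = 0
      · exact Or.inl ⟨ha1, ha2, ha3⟩
      · refine Or.inr ⟨b3 / a3, ?_, ?_, ?_⟩
        · field_simp; linear_combination h2
        · field_simp; linear_combination -h1
        · field_simp
    · refine Or.inr ⟨b2 / a2, ?_, ?_, ?_⟩
      · field_simp; linear_combination -h3
      · field_simp
      · field_simp; linear_combination h1
  · refine Or.inr ⟨b1 / a1, ?_, ?_, ?_⟩
    · field_simp
    · field_simp; linear_combination h3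
    · field_simp; linear_combination -h2

theorem la3Aux_ext {k : Type*} [Field k] {M N : Mk k} (h00 : M 0 0 = N 0 0) (h01 : M 0 1 = N 0 1)
    (h10 : M 1 0 = N 1 0) (h11 : M 1 1 = N 1 1) : M = N := by
  ext i j
  fin_cases i <;> fin_cases j
  · exact h00
  · exact h01
  · exact h10
  · exact h11

theorem la3Aux_tr {k : Type*} [Field k] {A X : Mk k} (hA : A.trace = 0) (hX : X.trace = 0)
    (h : (A * X).trace = 0) : A 0 0 * (2 * X 0 0) + A 0 1 * X 1 0 + A 1 0 * X 0 1 = 0 := by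
  rw [Matrix.trace_fin_two] at hA hX h
  rw [Matrix.mul_apply, Matrix.mul_apply, Fin.sum_univ_two, Fin.sum_univ_two] at h
  have tA : A 1 1 = - A 0 0 := by linear_combination hA
  have tX : X 1 1 = - X 0 0 := by linear_combination hX
  rw [tA, tX] at h
  linear_combination h

theorem la3 {k : Type*} [Field k] (h2 : (2 : k) ≠ 0) (A A' X Y : Mk k)
    (hA : A.trace = 0) (hA' : A'.trace = 0) (hX : X.trace = 0) (hY : Y.trace = 0)
    (h1 : (A * X).trace = 0) (h2' : (A * Y).trace = 0) (h3 : (A' * X).trace = 0)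
    (h4 : (A' * Y).trace = 0) :
    A = 0 ∨ (∃ c : k, A' = c • A) ∨ X = 0 ∨ (∃ c : k, Y = c • X) := by
  have e1 := la3Aux_tr hA hX h1
  have e2 := la3Aux_tr hA hY h2'
  have e3 := la3Aux_tr hA' hX h3
  have e4 := la3Aux_tr hA' hY h4
  rw [Matrix.trace_fin_two] at hA hA' hX hY
  have tA : A 1 1 = - A 0 0 := by linear_combination hA
  have tA' : A' 1 1 = - A' 0 0 := by linear_combination hA'
  have tX : X 1 1 = - X 0 0 := by linear_combination hX
  have tY : Y 1 1 = - Y 0 0 := by linear_combination hY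
  set n1 := A 0 1 * A' 1 0 - A 1 0 * A' 0 1 with hn1
  set n2 := A 1 0 * A' 0 0 - A 0 0 * A' 1 0 with hn2
  set n3 := A 0 0 * A' 0 1 - A 0 1 * A' 0 0 with hn3
  by_cases hn : n1 = 0 ∧ n2 = 0 ∧ n3 = 0
  · obtain ⟨g1, g2, g3⟩ := hn
    rcases la3Aux_prop (A 0 0) (A 0 1) (A 1 0) (A' 0 0) (A' 0 1) (A' 1 0) g1 g2 g3 with
      ⟨z1, z2, z3⟩ | ⟨c, c1, c2, c3⟩
    · exact Or.inl (la3Aux_ext z1 z2 z3 (by rw [tA, z1]; simp))
    · refine Or.inr (Or.inl ⟨c, la3Aux_ext ?_ ?_ ?_ ?_⟩)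
      · simpa using c1
      · simpa using c2
      · simpa using c3
      · simp only [Matrix.smul_apply, smul_eq_mul]; rw [tA, tA', c1]; ring
  · refine Or.inr (Or.inr ?_)
    rcases la3Aux_prop n1 n2 n3 (2 * X 0 0) (X 1 0) (X 0 1)
      (by rw [hn2, hn3]; linear_combination (A' 0 0) * e1 - (A 0 0) * e3)
      (by rw [hn1, hn3]; linear_combination (A' 0 1) * e1 - (A 0 1) * e3)
      (by rw [hn1, hn2]; linear_combination (A' 1 0) * e1 - (A 1 0) * e3) with hz | ⟨c, c1, c2, c3⟩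
    · exact absurd hz hn
    rcases la3Aux_prop n1 n2 n3 (2 * Y 0 0) (Y 1 0) (Y 0 1)
      (by rw [hn2, hn3]; linear_combination (A' 0 0) * e2 - (A 0 0) * e4)
      (by rw [hn1, hn3]; linear_combination (A' 0 1) * e2 - (A 0 1) * e4)
      (by rw [hn1, hn2]; linear_combination (A' 1 0) * e2 - (A 1 0) * e4) with hz | ⟨d, d1, d2, d3⟩
    · exact absurd hz hn
    by_cases hc : c = 0
    · left
      rw [hc, zero_mul] at c1 c2 c3
      have x0 : X 0 0 = 0 := (mul_eq_zero.1 c1).resolve_left h2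
      exact la3Aux_ext x0 c3 c2 (by rw [tX, x0]; simp)
    · right
      have y0 : Y 0 0 = d / c * X 0 0 := by
        apply mul_left_cancel₀ h2
        rw [d1]
        have : n1 = 2 * X 0 0 / c := by rw [c1]; field_simp
        rw [this]; field_simp
      refine ⟨d / c, la3Aux_ext ?_ ?_ ?_ ?_⟩
      · simpa using y0
      · simp only [Matrix.smul_apply, smul_eq_mul]; rw [d3, c3]; field_simp
      · simp only [Matrix.smul_apply, smul_eq_mul]; rw [d2, c2]; field_simp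
      · simp only [Matrix.smul_apply, smul_eq_mul]; rw [tY, tX, y0]; ring

end Fermat.Agent.S56.KS
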